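import Mathlib.FieldTheory.IsAlgClosed.Classification
import Mathlib.FieldTheory.AlgebraicClosure
import Mathlib.FieldTheory.Normal.Basic
import Mathlib.RingTheory.AlgebraicIndependent.Transcendental
import Mathlib.Analysis.Complex.Polynomial.Basic

/-!
# The fixed field of the automorphisms of `ℂ`

Fixed field of the automorphism group of `ℂ` is `ℚ`, and Galois descent of rational structures
for spaces of sequences determined by finitely many coordinates.
-/

set_option autoImplicit false

noncomputable section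

namespace FLTAgent.MFIntegral

/-- An automorphism of a polynomial ring on a transcendence basis extends to `ℂ`. -/
theorem exists_aut_extending {R : Type} [Field R] [Algebra R ℂ] {ι : Type} (v : ι → ℂ)
    (hv : IsTranscendenceBasis R v) (e : MvPolynomial ι R ≃+* MvPolynomial ι R) :
    ∃ σ : ℂ ≃+* ℂ, ∀ p, σ (MvPolynomial.aeval v p) = MvPolynomial.aeval v (e p) := by
  let := IsAlgClosed.isAlgClosure_of_transcendence_basis v hv
  let e' := hv.1.aevalEquiv.symm.toRingEquiv.trans (e.trans hv.1.aevalEquiv.toRingEquiv)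
  refine ⟨IsAlgClosure.equivOfEquiv ℂ ℂ e', fun p => ?_⟩
  have h1 : ∀ q, MvPolynomial.aeval v q =
      algebraMap (Algebra.adjoin R (Set.range v)) ℂ (hv.1.aevalEquiv q) := fun q =>
    (hv.1.algebraMap_aevalEquiv q).symm
  rw [h1 p, IsAlgClosure.equivOfEquiv_algebraMap, h1 (e p)]
  simp [e']

/-- A complex number fixed by all automorphisms of `ℂ` is rational. -/
theorem rat_of_forall_aut_fixed (x : ℂ) (hx : ∀ σ : ℂ ≃+* ℂ, σ x = x) : ∃ r : ℚ, x = r := by
  by_cases halg : IsAlgebraic ℚ x
  · by_contra hne
    push Not at hne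
    let K := algebraicClosure ℚ ℂ
    have hxint : IsIntegral ℚ x := halg.isIntegral
    let x' : K := ⟨x, mem_algebraicClosure_iff.2 halg⟩
    have hx'int : IsIntegral ℚ x' := (isIntegral_algHom_iff K.val Subtype.val_injective).1 hxint
    have hdeg : (minpoly ℚ x).natDegree ≠ 1 := by
      intro h
      obtain ⟨r, hr⟩ := minpoly.natDegree_eq_one_iff.1 h
      exact hne r (by simp [← hr])
    have hsep : (minpoly ℚ x).Separable := (minpoly.irreducible hxint).separable
    obtain ⟨y, hy, hyne⟩ : ∃ y : ℂ, Polynomial.aeval y (minpoly ℚ x) = 0 ∧ y ≠ x := by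
      by_contra h
      push Not at h
      have hcard : Fintype.card ((minpoly ℚ x).rootSet ℂ) = (minpoly ℚ x).natDegree :=
        Polynomial.card_rootSet_eq_natDegree hsep (IsAlgClosed.splits _)
      have hsub : Subsingleton ((minpoly ℚ x).rootSet ℂ) := by
        refine ⟨fun a b => Subtype.ext ?_⟩
        rw [h _ (Polynomial.mem_rootSet.1 a.2).2, h _ (Polynomial.mem_rootSet.1 b.2).2]
      have hle := Fintype.card_le_one_iff_subsingleton.2 hsub
      have hpos := minpoly.natDegree_pos hxint
      omega
    let y' : K := ⟨y, mem_algebraicClosure_iff.2 ⟨minpoly ℚ x, minpoly.ne_zero hxint, hy⟩⟩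
    have : IsAlgClosure ℚ K := algebraicClosure.isAlgClosure ℚ ℂ
    have : Normal ℚ K := IsAlgClosure.normal ℚ K
    have hy' : Polynomial.aeval y' (minpoly ℚ x') = 0 := by
      rw [show minpoly ℚ x' = minpoly ℚ x from
        (minpoly.algHom_eq K.val Subtype.val_injective x').symm]
      apply Subtype.val_injective
      exact ((Polynomial.aeval_algHom_apply K.val y' (minpoly ℚ x)).symm.trans hy)
    obtain ⟨τ, hτ⟩ := minpoly.exists_algEquiv_of_root' hx'int.isAlgebraic hy'
    obtain ⟨ι, v, hv⟩ := exists_isTranscendenceBasis' K ℂ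
    obtain ⟨σ, hσ⟩ := exists_aut_extending v hv (MvPolynomial.mapEquiv ι τ.toRingEquiv)
    have := hσ (MvPolynomial.C x')
    have hmap : MvPolynomial.mapEquiv ι τ.toRingEquiv (MvPolynomial.C x') =
        MvPolynomial.C (τ x') := MvPolynomial.map_C _ _
    rw [hmap, hτ, MvPolynomial.aeval_C, MvPolynomial.aeval_C] at this
    exact hyne (this.symm.trans (hx σ))
  · have hind : AlgebraicIndepOn ℚ id ({x} : Set ℂ) :=
      algebraicIndependent_unique_type_iff.2 (by simpa [Transcendental] using halg)
    obtain ⟨t, hxt, ht⟩ := exists_isTranscendenceBasis_superset hind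
    classical
    let b : t := ⟨x, hxt rfl⟩
    let δ : t → MvPolynomial t ℚ := fun i => if i = b then 1 else 0
    let e : MvPolynomial t ℚ ≃ₐ[ℚ] MvPolynomial t ℚ :=
      AlgEquiv.ofAlgHom (MvPolynomial.aeval fun i => MvPolynomial.X i + δ i)
        (MvPolynomial.aeval fun i => MvPolynomial.X i - δ i)
        (by ext i; by_cases h : i = b <;> simp [δ, h])
        (by ext i; by_cases h : i = b <;> simp [δ, h])
    obtain ⟨σ, hσ⟩ := exists_aut_extending (fun i : t => (i : ℂ)) ht e.toRingEquiv
    have := hσ (MvPolynomial.X b)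
    simp [e, δ, b, hx σ] at this

/-- Galois descent: a space of sequences determined by its first `B` entries and stable under
`Aut ℂ` is spanned by its rational members. -/
theorem span_rational_eq_top {M : Type*} [AddCommGroup M] [Module ℂ M] (L : M →ₗ[ℂ] (ℕ → ℂ))
    (B : ℕ) (hB : ∀ f, (∀ i < B, L f i = 0) → f = 0)
    (hσ : ∀ (σ : ℂ ≃+* ℂ) (f : M), ∃ g, ∀ n, L g n = σ (L f n)) :
    Submodule.span ℂ {f : M | ∀ n, ∃ r : ℚ, L f n = r} = ⊤ := by
  classical
  set P := Submodule.span ℂ {f : M | ∀ n, ∃ r : ℚ, L f n = r}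
  let supp : M → Finset ℕ := fun f => (Finset.range B).filter (fun i => L f i ≠ 0)
  suffices H : ∀ (m : ℕ) (f : M), (supp f).card ≤ m → f ∈ P by
    exact eq_top_iff.2 fun f _ => H _ f le_rfl
  intro m
  induction m with
  | zero =>
    intro f hf
    have : f = 0 := hB f fun i hi => by
      by_contra h
      have : i ∈ supp f := by simp [supp, hi, h]
      simp [Finset.card_eq_zero.1 (Nat.le_zero.1 hf)] at this
    simp [this]
  | succ m ih =>
    intro f hf
    by_cases hf0 : f = 0
    · simp [hf0]
    obtain ⟨i, hiB, hi⟩ : ∃ i, i < B ∧ L f i ≠ 0 := by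
      by_contra h
      push Not at h
      exact hf0 (hB f h)
    have hsmall : ∀ (g : M) (j : ℕ), (∀ n, L f n = 0 → L g n = 0) → j < B → L f j ≠ 0 → L g j = 0 →
        g ∈ P := by
      intro g j h1 hjB hj hgj
      apply ih
      have hsub : supp g ⊆ (supp f).erase j := by
        intro n hn
        simp only [supp, Finset.mem_filter, Finset.mem_range, Finset.mem_erase] at hn ⊢
        refine ⟨?_, hn.1, fun h => hn.2 (h1 n h)⟩
        rintro rfl
        exact hn.2 hgj
      have hmem : j ∈ supp f := by simp [supp, hjB, hj]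
      have := Finset.card_le_card hsub
      rw [Finset.card_erase_of_mem hmem] at this
      omega
    set g := (L f i)⁻¹ • f with hg
    have hgi : L g i = 1 := by simp [hg, hi]
    have hfg : f = L f i • g := by simp [hg, hi]
    rw [hfg]
    apply P.smul_mem
    by_cases hfix : ∀ (σ : ℂ ≃+* ℂ) n, σ (L g n) = L g n
    · exact Submodule.subset_span fun n => rat_of_forall_aut_fixed _ fun σ => hfix σ n
    push Not at hfix
    obtain ⟨σ, n₀, hn₀⟩ := hfix
    obtain ⟨g', hg'⟩ := hσ σ g
    set d := g' - g
    have hd : ∀ n, L f n = 0 → L d n = 0 := fun n hn => by simp [d, hg', hg, hn]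
    have hdP : d ∈ P := hsmall d i hd hiB hi (by simp [d, hg', hgi])
    have hd0 : d ≠ 0 := fun h => hn₀ (by
      have := congrArg (fun u => L u n₀) h
      simpa [d, hg', sub_eq_zero] using this)
    obtain ⟨j, hjB, hj⟩ : ∃ j, j < B ∧ L d j ≠ 0 := by
      by_contra h
      push Not at h
      exact hd0 (hB d h)
    have hfj : L f j ≠ 0 := fun h => hj (hd j h)
    have hP : g - (L g j / L d j) • d ∈ P := hsmall _ j
      (fun n hn => by simp [hd n hn]; simp [hg, hn]) hjB hfj (by simp [hj])
    simpa using P.add_mem hP (P.smul_mem (L g j / L d j) hdP)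

end FLTAgent.MFIntegral
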