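import Mathlib

/-!
# Periodic bounded holomorphic functions

Periodic bounded holomorphic functions on the upper half plane, their `q`-expansion homomorphism,
and quotients of holomorphic functions which are integral over holomorphic functions.
-/

set_option autoImplicit false

noncomputable section

namespace FLTAgent.MFIntegral

open UpperHalfPlane Filter
open scoped Manifold Topology

/-- Period one, holomorphic, bounded at `∞`. -/
def PB : Subalgebra ℂ (ℍ → ℂ) where
  carrier := {f | Function.Periodic (f ∘ ofComplex) 1 ∧ MDiff f ∧ IsBoundedAtImInfty f}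
  mul_mem' {_f _g} hf hg := ⟨hf.1.mul hg.1, hf.2.1.mul hg.2.1, hf.2.2.mul hg.2.2⟩
  add_mem' {_f _g} hf hg := ⟨hf.1.add hg.1, hf.2.1.add hg.2.1, hf.2.2.add hg.2.2⟩
  algebraMap_mem' c := ⟨fun _ => rfl, mdifferentiable_const,
    Filter.const_boundedAtFilter atImInfty c⟩

/-- Membership in the periodic bounded holomorphic functions. -/
theorem mem_PB {f : ℍ → ℂ} :
    f ∈ PB ↔ Function.Periodic (f ∘ ofComplex) 1 ∧ MDiff f ∧ IsBoundedAtImInfty f := Iff.rfl

theorem PB.analyticAt {f : ℍ → ℂ} (hf : f ∈ PB) : AnalyticAt ℂ (cuspFunction (1 : ℝ) f) 0 :=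
  analyticAt_cuspFunction_zero one_pos (by simpa using hf.1) hf.2.1 hf.2.2

/-- The `q`-expansion. -/
def qE (f : ℍ → ℂ) : PowerSeries ℂ := qExpansion (1 : ℝ) f

theorem qE_add {f g : ℍ → ℂ} (hf : f ∈ PB) (hg : g ∈ PB) : qE (f + g) = qE f + qE g :=
  UpperHalfPlane.qExpansion_add (PB.analyticAt hf) (PB.analyticAt hg)

theorem qE_mul {f g : ℍ → ℂ} (hf : f ∈ PB) (hg : g ∈ PB) : qE (f * g) = qE f * qE g :=
  UpperHalfPlane.qExpansion_mul (PB.analyticAt hf) (PB.analyticAt hg)

/-- The expansion of a scalar multiple. -/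
theorem qE_smul {f : ℍ → ℂ} (hf : f ∈ PB) (c : ℂ) : qE (c • f) = c • qE f :=
  UpperHalfPlane.qExpansion_smul (PB.analyticAt hf) c

theorem qE_zero : qE 0 = 0 := UpperHalfPlane.qExpansion_zero _

theorem qE_one : qE 1 = 1 := UpperHalfPlane.qExpansion_one _

theorem qE_sub {f g : ℍ → ℂ} (hf : f ∈ PB) (hg : g ∈ PB) : qE (f - g) = qE f - qE g :=
  UpperHalfPlane.qExpansion_sub (PB.analyticAt hf) (PB.analyticAt hg)

theorem qE_pow {f : ℍ → ℂ} (hf : f ∈ PB) (n : ℕ) : qE (f ^ n) = qE f ^ n := by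
  induction n with
  | zero => simpa using qE_one
  | succ n ih => rw [pow_succ, pow_succ, qE_mul (pow_mem hf n) hf, ih]

theorem qE_sum {ι : Type*} (s : Finset ι) (f : ι → ℍ → ℂ) (hf : ∀ i ∈ s, f i ∈ PB) :
    qE (∑ i ∈ s, f i) = ∑ i ∈ s, qE (f i) := by
  classical
  induction s using Finset.induction_on with
  | empty => simpa using qE_zero
  | insert a t hat ih =>
    rw [Finset.sum_insert hat, Finset.sum_insert hat,
      qE_add (hf a (Finset.mem_insert_self a t))
        (sum_mem fun i hi => hf i (Finset.mem_insert_of_mem hi)),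
      ih fun i hi => hf i (Finset.mem_insert_of_mem hi)]

theorem qE_eq_zero_iff {f : ℍ → ℂ} (hf : f ∈ PB) : qE f = 0 ↔ f = 0 :=
  UpperHalfPlane.qExpansion_eq_zero_iff one_pos (by simpa using hf.1) hf.2.1 hf.2.2

theorem qE_injective {f g : ℍ → ℂ} (hf : f ∈ PB) (hg : g ∈ PB) (h : qE f = qE g) : f = g := by
  rw [← sub_eq_zero, ← qE_eq_zero_iff (sub_mem hf hg), qE_sub hf hg, h, sub_self]

theorem mdiff_mul_cancel {D f g : ℍ → ℂ} (hD : MDiff D) (hD0 : D ≠ 0) (hf : MDiff f) (hg : MDiff g)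
    (h : D * f = D * g) : f = g := by
  have : D * (f - g) = 0 := by rw [mul_sub, h, sub_self]
  rcases (UpperHalfPlane.mul_eq_zero_iff hD (hf.sub hg)).1 this with h1 | h1
  · exact absurd h1 hD0
  · exact sub_eq_zero.1 h1

/-- Bound for roots of monic polynomials. -/
theorem norm_root_le {n : ℕ} (hn : 0 < n) {a : ℕ → ℂ} {x : ℂ}
    (h : x ^ n + ∑ i ∈ Finset.range n, a i * x ^ i = 0) :
    ‖x‖ ≤ 1 + ∑ i ∈ Finset.range n, ‖a i‖ := by
  rcases le_or_gt ‖x‖ 1 with hx | hx
  · exact hx.trans (le_add_of_nonneg_right (Finset.sum_nonneg fun i _ => norm_nonneg _))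
  · obtain ⟨m, rfl⟩ : ∃ m, n = m + 1 := ⟨n - 1, by omega⟩
    have h1 : ‖x‖ ^ (m + 1) ≤ (∑ i ∈ Finset.range (m + 1), ‖a i‖) * ‖x‖ ^ m := by
      rw [← norm_pow, eq_neg_of_add_eq_zero_left h, norm_neg, Finset.sum_mul]
      refine (norm_sum_le _ _).trans (Finset.sum_le_sum fun i hi => ?_)
      rw [norm_mul, norm_pow]
      exact mul_le_mul_of_nonneg_left
        (pow_le_pow_right₀ hx.le (Nat.lt_succ_iff.1 (Finset.mem_range.1 hi))) (norm_nonneg _)
    rw [pow_succ'] at h1
    have := le_of_mul_le_mul_right h1 (pow_pos (by linarith) m)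
    linarith

/-- Roots of monic polynomials with small lower coefficients are small. -/
theorem tendsto_root_zero {α : Type*} {l : Filter α} {n : ℕ} {a : ℕ → α → ℂ} {x : α → ℂ}
    (ha : ∀ i < n, Tendsto (a i) l (𝓝 0))
    (h : ∀ t, x t ^ n + ∑ i ∈ Finset.range n, a i t * x t ^ i = 0) : Tendsto x l (𝓝 0) := by
  rw [Metric.tendsto_nhds]
  intro ε hε
  have hsum : Tendsto (fun t => ∑ i ∈ Finset.range n, ‖a i t‖ / ε ^ (n - i)) l (𝓝 0) := by
    have := tendsto_finsetSum (Finset.range n)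
      (fun i hi => ((ha i (Finset.mem_range.1 hi)).norm.div_const (ε ^ (n - i))))
    simpa using this
  filter_upwards [hsum.eventually_lt_const one_pos] with t ht
  rw [dist_zero_right]
  by_contra hle
  push Not at hle
  have hxp : 0 < ‖x t‖ := hε.trans_le hle
  have h1 : ‖x t‖ ^ n ≤ ∑ i ∈ Finset.range n, ‖a i t‖ * ‖x t‖ ^ i := by
    rw [← norm_pow, eq_neg_of_add_eq_zero_left (h t), norm_neg]
    exact (norm_sum_le _ _).trans_eq (Finset.sum_congr rfl fun i _ => by rw [norm_mul, norm_pow])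
  have h2 : ∑ i ∈ Finset.range n, ‖a i t‖ * ‖x t‖ ^ i ≤
      (∑ i ∈ Finset.range n, ‖a i t‖ / ε ^ (n - i)) * ‖x t‖ ^ n := by
    rw [Finset.sum_mul]
    refine Finset.sum_le_sum fun i hi => ?_
    obtain ⟨u, rfl⟩ : ∃ u, n = i + u := ⟨n - i, by have := Finset.mem_range.1 hi; omega⟩
    rw [Nat.add_sub_cancel_left, pow_add, div_mul_eq_mul_div, le_div_iff₀ (pow_pos hε u)]
    have : ε ^ u ≤ ‖x t‖ ^ u := pow_le_pow_left₀ hε.le hle u
    have h0 : 0 ≤ ‖a i t‖ * ‖x t‖ ^ i := by positivity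
    nlinarith
  have h3 : (0 : ℝ) < ‖x t‖ ^ n := pow_pos hxp n
  nlinarith

/-- If `R / D` is integral over holomorphic functions then it is holomorphic. -/
theorem exists_quotient {R D : ℍ → ℂ} (hR : MDiff R) (hD : MDiff D) (hD0 : D ≠ 0) {n : ℕ}
    (hn : 0 < n) {a : ℕ → ℍ → ℂ} (ha : ∀ i < n, MDiff (a i))
    (h : ∀ τ, R τ ^ n + ∑ i ∈ Finset.range n, a i τ * (R τ ^ i * D τ ^ (n - i)) = 0) :
    ∃ f : ℍ → ℂ, MDiff f ∧ D * f = R ∧
      ∀ τ, f τ ^ n + ∑ i ∈ Finset.range n, a i τ * f τ ^ i = 0 := by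
  set g : ℂ → ℂ := fun z => (R ∘ ofComplex) z / (D ∘ ofComplex) z with hg
  set f : ℍ → ℂ := fun τ => limUnder (𝓝[≠] (τ : ℂ)) g with hf
  have hRd := UpperHalfPlane.mdifferentiable_iff.1 hR
  have hDd := UpperHalfPlane.mdifferentiable_iff.1 hD
  have hiso : ∀ z : ℂ, 0 < z.im → ∀ᶠ w in 𝓝[≠] z, (D ∘ ofComplex) w ≠ 0 := by
    intro z hz
    rcases (hDd.analyticAt
      (isOpen_upperHalfPlaneSet.mem_nhds hz)).eventually_eq_zero_or_eventually_ne_zero
      with h0 | h0
    · exfalso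
      apply hD0
      refine eq_zero_of_frequently hD (τ := ⟨z, hz⟩) ?_
      refine Eventually.frequently (eventually_nhdsWithin_of_eventually_nhds ?_)
      have := (UpperHalfPlane.continuous_coe.tendsto ⟨z, hz⟩).eventually h0
      filter_upwards [this] with w hw
      simpa using hw
    · exact h0
  have hnear : ∀ τ : ℍ, ∃ U ∈ 𝓝 (τ : ℂ), DifferentiableOn ℂ (f ∘ ofComplex) U := by
    intro τ
    have hbd : ∀ᶠ w in 𝓝 (τ : ℂ), ∀ i < n, ‖(a i ∘ ofComplex) w‖ ≤ ‖a i τ‖ + 1 := by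
      have : ∀ i ∈ Finset.range n, ∀ᶠ w in 𝓝 (τ : ℂ), ‖(a i ∘ ofComplex) w‖ ≤ ‖a i τ‖ + 1 := by
        intro i hi
        have hc := (UpperHalfPlane.mdifferentiableAt_iff.1
          (ha i (Finset.mem_range.1 hi) τ)).continuousAt.norm
        refine hc.eventually_le_const ?_
        simp
      have := (eventually_all_finset (Finset.range n)).2 this
      filter_upwards [this] with w hw i hi using hw i (Finset.mem_range.2 hi)
    have him : ∀ᶠ w in 𝓝 (τ : ℂ), 0 < w.im := isOpen_upperHalfPlaneSet.mem_nhds τ.im_pos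
    obtain ⟨U, hUsub, hUo, hτU⟩ := eventually_nhds_iff.1
      ((hbd.and him).and (eventually_nhdsWithin_iff.1 (hiso τ τ.im_pos)))
    have hUn : U ∈ 𝓝 (τ : ℂ) := hUo.mem_nhds hτU
    have hgd : DifferentiableOn ℂ g (U \ {(τ : ℂ)}) := fun w hw =>
      ((hRd.differentiableAt (isOpen_upperHalfPlaneSet.mem_nhds (hUsub w hw.1).1.2)).div
        (hDd.differentiableAt (isOpen_upperHalfPlaneSet.mem_nhds (hUsub w hw.1).1.2))
        ((hUsub w hw.1).2 hw.2)).differentiableWithinAt
    have hgb : BddAbove (norm ∘ g '' (U \ {(τ : ℂ)})) := by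
      refine ⟨1 + ∑ i ∈ Finset.range n, (‖a i τ‖ + 1), ?_⟩
      rintro _ ⟨w, hw, rfl⟩
      have hDw := (hUsub w hw.1).2 hw.2
      have hroot : g w ^ n + ∑ i ∈ Finset.range n, (a i ∘ ofComplex) w * g w ^ i = 0 := by
        have he := h (ofComplex w)
        simp only [hg, Function.comp_apply] at hDw ⊢
        set r := R (ofComplex w)
        set d := D (ofComplex w)
        have : ∀ i ∈ Finset.range n, a i (ofComplex w) * (r / d) ^ i =
            a i (ofComplex w) * (r ^ i * d ^ (n - i)) / d ^ n := by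
          intro i hi
          obtain ⟨u, rfl⟩ : ∃ u, n = i + u := ⟨n - i, by have := Finset.mem_range.1 hi; omega⟩
          rw [Nat.add_sub_cancel_left, pow_add, div_pow]
          field_simp
        rw [Finset.sum_congr rfl this, div_pow, ← Finset.sum_div, ← add_div, he, zero_div]
      refine (norm_root_le hn hroot).trans (add_le_add le_rfl (Finset.sum_le_sum fun i hi => ?_))
      exact (hUsub w hw.1).1.1 i (Finset.mem_range.1 hi)
    refine ⟨U, hUn, (Complex.differentiableOn_update_limUnder_of_bddAbove hUn hgd hgb).congr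
      fun w hw => ?_⟩
    have hwim := (hUsub w hw).1.2
    rw [Function.comp_apply, ofComplex_apply_of_im_pos hwim]
    by_cases hwτ : w = (τ : ℂ)
    · subst hwτ; simp [f]
    · rw [Function.update_of_ne hwτ]
      exact ((hgd.differentiableAt ((hUo.sdiff isClosed_singleton).mem_nhds
        ⟨hw, hwτ⟩)).continuousAt.tendsto.mono_left nhdsWithin_le_nhds).limUnder_eq
  have hfmd : MDiff f := fun τ => by
    obtain ⟨U, hU, hd⟩ := hnear τ
    exact UpperHalfPlane.mdifferentiableAt_iff.2 (hd.differentiableAt hU)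
  have hfval : ∀ τ : ℍ, D τ ≠ 0 → f τ = R τ / D τ := by
    intro τ hτ
    have hc : ContinuousAt g τ := ((UpperHalfPlane.mdifferentiableAt_iff.1 (hR τ)).div
      (UpperHalfPlane.mdifferentiableAt_iff.1 (hD τ)) (by simpa using hτ)).continuousAt
    rw [hf]
    exact (hc.tendsto.mono_left nhdsWithin_le_nhds).limUnder_eq.trans (by simp [g])
  have hDf : D * f = R := by
    have : D * (D * f - R) = 0 := by
      ext τ
      by_cases hτ : D τ = 0
      · simp [hτ]
      · simp [hfval τ hτ, mul_div_cancel₀ _ hτ]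
    rcases (UpperHalfPlane.mul_eq_zero_iff hD ((hD.mul hfmd).sub hR)).1 this with h1 | h1
    · exact absurd h1 hD0
    · exact sub_eq_zero.1 h1
  refine ⟨f, hfmd, hDf, ?_⟩
  have hpoly : MDiff (fun τ => f τ ^ n + ∑ i ∈ Finset.range n, a i τ * f τ ^ i) := by
    intro τ
    rw [UpperHalfPlane.mdifferentiableAt_iff]
    have hf' := UpperHalfPlane.mdifferentiableAt_iff.1 (hfmd τ)
    exact (hf'.pow n).fun_add (DifferentiableAt.fun_sum fun i hi =>
      (UpperHalfPlane.mdifferentiableAt_iff.1 (ha i (Finset.mem_range.1 hi) τ)).fun_mul (hf'.pow i))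
  have hDn : MDiff (D ^ n) := by
    intro τ
    rw [UpperHalfPlane.mdifferentiableAt_iff]
    exact (UpperHalfPlane.mdifferentiableAt_iff.1 (hD τ)).pow n
  have hzero : D ^ n * (fun τ => f τ ^ n + ∑ i ∈ Finset.range n, a i τ * f τ ^ i) = 0 := by
    ext τ
    have e := congrFun hDf τ
    simp only [Pi.mul_apply] at e
    rw [Pi.mul_apply, Pi.pow_apply, Pi.zero_apply, ← h τ, ← e, mul_add, Finset.mul_sum, mul_pow]
    congr 1
    refine Finset.sum_congr rfl fun i hi => ?_
    obtain ⟨u, rfl⟩ : ∃ u, n = i + u := ⟨n - i, by have := Finset.mem_range.1 hi; omega⟩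
    rw [Nat.add_sub_cancel_left, pow_add]
    ring
  rcases (UpperHalfPlane.mul_eq_zero_iff hDn hpoly).1 hzero with h1 | h1
  · exfalso
    apply hD0
    ext τ
    simpa [hn.ne'] using congrFun h1 τ
  · exact fun τ => congrFun h1 τ

end FLTAgent.MFIntegral
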