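import Mathlib
import Fermat.Agent.MFIntegral.Fun

/-!
# A predicate for modular forms

A function-level predicate for modular forms on subgroups of `SL(2, ℤ)`.
-/

set_option autoImplicit false

noncomputable section

namespace FLTAgent.MFIntegral

open UpperHalfPlane Filter Matrix.SpecialLinearGroup
open scoped Manifold Topology MatrixGroups ModularForm

variable {Γ : Subgroup SL(2, ℤ)} {k l : ℤ} {f g : ℍ → ℂ}

/-- `f` is a modular form of weight `k` on `Γ`. -/
structure IsMF (k : ℤ) (Γ : Subgroup SL(2, ℤ)) (f : ℍ → ℂ) : Prop where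
  slash : ∀ γ ∈ Γ, f ∣[k] γ = f
  holo : MDiff f
  bdd : ∀ γ : SL(2, ℤ), IsBoundedAtImInfty (f ∣[k] γ)

/-- `f` is a cusp form of weight `k` on `Γ`. -/
def IsCF (k : ℤ) (Γ : Subgroup SL(2, ℤ)) (f : ℍ → ℂ) : Prop :=
  IsMF k Γ f ∧ ∀ γ : SL(2, ℤ), IsZeroAtImInfty (f ∣[k] γ)

theorem mdiff_slash (hf : MDiff f) (k : ℤ) (γ : SL(2, ℤ)) : MDiff (f ∣[k] γ) := by
  rw [ModularForm.SL_slash]
  exact hf.slash k _

theorem neg_slash_SL (f : ℍ → ℂ) (k : ℤ) (γ : SL(2, ℤ)) : (-f) ∣[k] γ = -(f ∣[k] γ) := by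
  rw [ModularForm.SL_slash, ModularForm.SL_slash, SlashAction.neg_slash]

theorem prod_slash_SL {ι : Type*} (s : Finset ι) (F : ι → ℍ → ℂ) (k : ℤ) (γ : SL(2, ℤ)) :
    (∏ i ∈ s, F i) ∣[k * s.card] γ = ∏ i ∈ s, (F i ∣[k] γ) := by
  classical
  induction s using Finset.induction_on with
  | empty => simp [ModularForm.is_invariant_one]
  | insert a t hat ih =>
    rw [Finset.prod_insert hat, Finset.prod_insert hat, Finset.card_insert_of_notMem hat, ← ih,
      ← ModularForm.mul_slash_SL2]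
    congr 1
    push_cast
    ring

/-- Changing the weight along an equality. -/
theorem IsMF.cast (hf : IsMF k Γ f) (h : k = l) : IsMF l Γ f := h ▸ hf

theorem IsMF.mono {Γ' : Subgroup SL(2, ℤ)} (hf : IsMF k Γ f) (h : Γ' ≤ Γ) : IsMF k Γ' f :=
  ⟨fun γ hγ => hf.slash γ (h hγ), hf.holo, hf.bdd⟩

theorem isMF_one : IsMF 0 Γ 1 := by
  refine ⟨fun γ _ => ModularForm.is_invariant_one γ, mdifferentiable_const, fun γ => ?_⟩
  rw [ModularForm.is_invariant_one]
  exact Filter.const_boundedAtFilter atImInfty (1 : ℂ)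

theorem isMF_zero : IsMF k Γ 0 := by
  refine ⟨fun γ _ => SlashAction.zero_slash k γ, mdifferentiable_const, fun γ => ?_⟩
  rw [SlashAction.zero_slash]
  exact Filter.zero_zeroAtFilter atImInfty |>.boundedAtFilter

/-- Modular functions of one weight add. -/
theorem IsMF.add (hf : IsMF k Γ f) (hg : IsMF k Γ g) : IsMF k Γ (f + g) := by
  refine ⟨fun γ hγ => ?_, hf.holo.add hg.holo, fun γ => ?_⟩
  · rw [SlashAction.add_slash, hf.slash γ hγ, hg.slash γ hγ]
  · rw [SlashAction.add_slash]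
    exact (hf.bdd γ).add (hg.bdd γ)

/-- A scalar multiple is modular. -/
theorem IsMF.smul (hf : IsMF k Γ f) (c : ℂ) : IsMF k Γ (c • f) := by
  refine ⟨fun γ hγ => ?_, hf.holo.const_smul c, fun γ => ?_⟩
  · rw [ModularForm.SL_smul_slash, hf.slash γ hγ]
  · rw [ModularForm.SL_smul_slash]
    exact (hf.bdd γ).smul c

theorem IsMF.mul (hf : IsMF k Γ f) (hg : IsMF l Γ g) : IsMF (k + l) Γ (f * g) := by
  refine ⟨fun γ hγ => ?_, hf.holo.mul hg.holo, fun γ => ?_⟩
  · rw [ModularForm.mul_slash_SL2, hf.slash γ hγ, hg.slash γ hγ]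
  · rw [ModularForm.mul_slash_SL2]
    exact (hf.bdd γ).mul (hg.bdd γ)

/-- A difference is modular. -/
theorem IsMF.sub (hf : IsMF k Γ f) (hg : IsMF k Γ g) : IsMF k Γ (f - g) := by
  simpa [sub_eq_add_neg] using hf.add (hg.smul (-1))

/-- A power is modular of multiplied weight. -/
theorem IsMF.pow (hf : IsMF k Γ f) : ∀ n : ℕ, IsMF (n * k) Γ (f ^ n)
  | 0 => by simpa using isMF_one
  | n + 1 => by
    rw [pow_succ]
    exact ((IsMF.pow hf n).mul hf).cast (by push_cast; ring)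

theorem isMF_finsetSum {ι : Type*} (s : Finset ι) (F : ι → ℍ → ℂ)
    (h : ∀ i ∈ s, IsMF k Γ (F i)) : IsMF k Γ (∑ i ∈ s, F i) := by
  classical
  induction s using Finset.induction_on with
  | empty => simpa using isMF_zero
  | insert a t hat ih =>
    rw [Finset.sum_insert hat]
    exact (h a (Finset.mem_insert_self a t)).add (ih fun i hi => h i (Finset.mem_insert_of_mem hi))

/-- The bundled modular form. -/
def IsMF.toMF [Γ.FiniteIndex] (hf : IsMF k Γ f) : ModularForm Γ k where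
  toFun := f
  slash_action_eq' := by
    rintro _ ⟨γ, hγ, rfl⟩
    exact hf.slash γ hγ
  holo' := hf.holo
  bdd_at_cusps' {c} hc := by
    rw [Subgroup.IsArithmetic.isCusp_iff_isCusp_SL2Z] at hc
    rw [OnePoint.isBoundedAt_iff_forall_SL2Z hc]
    exact fun γ _ => hf.bdd γ

@[simp] theorem IsMF.coe_toMF [Γ.FiniteIndex] (hf : IsMF k Γ f) : ⇑hf.toMF = f := rfl

theorem isMF_of_modularForm [Γ.FiniteIndex] (F : ModularForm Γ k) : IsMF k Γ F := by
  refine ⟨fun γ hγ => F.slash_action_eq' _ ⟨γ, hγ, rfl⟩, F.holo', fun γ => ?_⟩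
  have hc : IsCusp (mapGL ℝ γ • OnePoint.infty) Γ := by
    rw [Subgroup.IsArithmetic.isCusp_iff_isCusp_SL2Z]
    exact isCusp_SL2Z_iff'.2 ⟨γ, rfl⟩
  exact F.bdd_at_cusps' hc (mapGL ℝ γ) rfl

/-- The bundled cusp form. -/
def IsCF.toCF [Γ.FiniteIndex] (hf : IsCF k Γ f) : CuspForm Γ k where
  toFun := f
  slash_action_eq' := by
    rintro _ ⟨γ, hγ, rfl⟩
    exact hf.1.slash γ hγ
  holo' := hf.1.holo
  zero_at_cusps' {c} hc := by
    rw [Subgroup.IsArithmetic.isCusp_iff_isCusp_SL2Z] at hc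
    rw [OnePoint.isZeroAt_iff_forall_SL2Z hc]
    exact fun γ _ => hf.2 γ

/-- The cusp form of a cuspidal function has the same values. -/
@[simp] theorem IsCF.coe_toCF [Γ.FiniteIndex] (hf : IsCF k Γ f) : ⇑hf.toCF = f := rfl

/-- A cusp form is a cuspidal modular function. -/
theorem isCF_of_cuspForm [Γ.FiniteIndex] (F : CuspForm Γ k) : IsCF k Γ F := by
  have hc : ∀ γ : SL(2, ℤ), IsCusp (mapGL ℝ γ • OnePoint.infty) Γ := fun γ => by
    rw [Subgroup.IsArithmetic.isCusp_iff_isCusp_SL2Z]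
    exact isCusp_SL2Z_iff'.2 ⟨γ, rfl⟩
  have hz : ∀ γ : SL(2, ℤ), IsZeroAtImInfty ((F : ℍ → ℂ) ∣[k] γ) := fun γ =>
    F.zero_at_cusps' (hc γ) (mapGL ℝ γ) rfl
  exact ⟨⟨fun γ hγ => F.slash_action_eq' _ ⟨γ, hγ, rfl⟩, F.holo',
    fun γ => (hz γ).boundedAtFilter⟩, hz⟩

theorem IsMF.bdd_infty (hf : IsMF k Γ f) : IsBoundedAtImInfty f := by
  simpa using hf.bdd 1

theorem IsMF.mem_PB (hT : ModularGroup.T ∈ Γ) (hf : IsMF k Γ f) : f ∈ PB := by
  refine ⟨fun z => ?_, hf.holo, hf.bdd_infty⟩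
  by_cases hz : 0 < z.im
  · have hz' : 0 < (z + 1).im := by simpa using hz
    have h := congrFun (hf.slash _ hT) ⟨z, hz⟩
    rw [ModularForm.SL_slash_apply] at h
    simp only [Function.comp_apply, ofComplex_apply_of_im_pos hz, ofComplex_apply_of_im_pos hz']
    convert h using 1
    rw [show denom (toGL (Matrix.SpecialLinearGroup.map (Int.castRingHom ℝ) ModularGroup.T))
        (⟨z, hz⟩ : ℍ) = 1 by simp [denom, ModularGroup.coe_T], one_zpow, mul_one]
    congr 1
    refine UpperHalfPlane.ext ?_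
    change z + 1 = ((ModularGroup.T • (⟨z, hz⟩ : ℍ) : ℍ) : ℂ)
    rw [modular_T_smul]
    simp [add_comm]
  · have hz' : (z + 1).im ≤ 0 := by simpa using hz
    simp [Function.comp_apply, ofComplex_apply_of_im_nonpos (le_of_not_gt hz),
      ofComplex_apply_of_im_nonpos hz']

theorem IsCF.coeff_zero (hT : ModularGroup.T ∈ Γ) (hf : IsCF k Γ f) :
    PowerSeries.coeff 0 (qE f) = 0 := by
  have hPB := hf.1.mem_PB hT
  rw [qE, qExpansion_coeff_zero one_pos (PB.analyticAt hPB) (by simpa using hPB.1)]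
  exact IsZeroAtImInfty.valueAtInfty_eq_zero (by simpa using hf.2 1)

theorem isZeroAtImInfty_of_coeff_zero (hf : f ∈ PB) (h : PowerSeries.coeff 0 (qE f) = 0) :
    IsZeroAtImInfty f := by
  rw [qE, qExpansion_coeff_zero one_pos (PB.analyticAt hf) (by simpa using hf.1),
    ← UpperHalfPlane.cuspFunction_apply_zero one_pos (PB.analyticAt hf) (by simpa using hf.1)] at h
  have := (PB.analyticAt hf).continuousAt.tendsto.comp (qParam_tendsto_atImInfty one_pos)
  rw [h] at this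
  refine Tendsto.congr (fun τ => ?_) this
  exact eq_cuspFunction τ one_ne_zero (by simpa using hf.1)

end FLTAgent.MFIntegral
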