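import Mathlib

/-!
# Power series with bounded denominators

Power series over `ℂ` with integral coefficients up to a bounded denominator, and the normality
statement used to bound denominators of modular forms with rational coefficients.
-/

set_option autoImplicit false

noncomputable section

namespace FLTAgent.MFIntegral

open PowerSeries

/-- Series with integer coefficients. -/
def intSeries : Subring (PowerSeries ℂ) :=
  (PowerSeries.map (Int.castRingHom ℂ)).range

theorem mem_intSeries_iff {F : PowerSeries ℂ} :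
    F ∈ intSeries ↔ ∀ n, ∃ m : ℤ, coeff n F = m := by
  refine ⟨?_, fun h => ⟨PowerSeries.mk fun n => (h n).choose, ?_⟩⟩
  · rintro ⟨G, rfl⟩ n
    exact ⟨coeff n G, by simp⟩
  · ext n
    simp [← (h n).choose_spec]

theorem C_int_mem_intSeries (c : ℤ) : C (c : ℂ) ∈ intSeries :=
  ⟨C c, by simp⟩

theorem X_pow_mul_mem_intSeries_iff {F : PowerSeries ℂ} (m : ℕ) :
    X ^ m * F ∈ intSeries ↔ F ∈ intSeries := by
  refine ⟨fun h => mem_intSeries_iff.2 fun n => ?_, fun h => ?_⟩
  · obtain ⟨z, hz⟩ := mem_intSeries_iff.1 h (n + m)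
    exact ⟨z, by rw [← hz, coeff_X_pow_mul]⟩
  · exact mul_mem (pow_mem (⟨X, by simp⟩ : (X : PowerSeries ℂ) ∈ intSeries) m) h

/-- Almost-integrality forces integrality in the base ring `ℤ`. -/
theorem int_of_almost_int {r : ℂ} {d : ℤ} (hd : d ≠ 0) (h : ∀ m : ℕ, ∃ z : ℤ, (d : ℂ) * r ^ m = z) :
    ∃ z : ℤ, r = z := by
  obtain ⟨a, ha⟩ := h 1
  rw [pow_one] at ha
  set s : ℚ := (a : ℚ) / d with hs
  have hdc : (d : ℂ) ≠ 0 := Int.cast_ne_zero.2 hd
  have hrs : r = (s : ℂ) := by
    rw [hs]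
    push_cast
    field_simp
    linear_combination ha
  have key : ∀ m : ℕ, ((s.den : ℤ) ^ m) ∣ d := by
    intro m
    obtain ⟨z, hz⟩ := h m
    have h1 : (d : ℚ) * s ^ m = z := by
      rw [hrs] at hz
      exact_mod_cast hz
    have h2 : (d : ℚ) * (s.num : ℚ) ^ m = z * (s.den : ℚ) ^ m := by
      rw [← h1, mul_assoc, ← mul_pow, Rat.mul_den_eq_num]
    have h3 : d * s.num ^ m = z * (s.den : ℤ) ^ m := by exact_mod_cast h2
    have h4 : IsCoprime ((s.den : ℤ) ^ m) (s.num ^ m) :=
      (Int.isCoprime_iff_nat_coprime.2 (by simpa using s.reduced.symm)).pow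
    exact h4.dvd_of_dvd_mul_right ⟨z, by rw [h3]; ring⟩
  have hden : s.den = 1 := by
    by_contra hne
    have h2 : 2 ≤ s.den := by have := s.den_pos; omega
    have := Int.natAbs_dvd_natAbs.2 (key d.natAbs)
    rw [Int.natAbs_pow, Int.natAbs_natCast] at this
    have h5 := Nat.le_of_dvd (Int.natAbs_pos.2 hd) this
    have h6 : d.natAbs < s.den ^ d.natAbs := Nat.lt_pow_self h2
    omega
  exact ⟨s.num, by rw [hrs, Rat.cast_def, hden]; simp⟩

/-- `ℤ⟦q⟧` is completely integrally closed inside `ℂ⟦q⟧`. -/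
theorem mem_intSeries_of_almost {d G : PowerSeries ℂ} (hd : d ∈ intSeries) (hd0 : d ≠ 0)
    (h : ∀ m : ℕ, d * G ^ m ∈ intSeries) : G ∈ intSeries := by
  suffices H : ∀ (N : ℕ) (G : PowerSeries ℂ), (∀ m : ℕ, d * G ^ m ∈ intSeries) →
      ∀ i < N, ∃ z : ℤ, coeff i G = z by
    exact mem_intSeries_iff.2 fun n => H (n + 1) G h n (Nat.lt_succ_self n)
  intro N
  induction N with
  | zero => intro G _ i hi; omega
  | succ N ih =>
    intro G hG i hi
    classical
    obtain ⟨e, he, hlow⟩ : ∃ e, coeff e d ≠ 0 ∧ ∀ j < e, coeff j d = 0 := by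
      have hex : ∃ e, coeff e d ≠ 0 := by
        by_contra hc
        push Not at hc
        exact hd0 (PowerSeries.ext fun n => by simpa using hc n)
      exact ⟨Nat.find hex, Nat.find_spec hex, fun j hj => not_not.1 (Nat.find_min hex hj)⟩
    obtain ⟨de, hde⟩ := mem_intSeries_iff.1 hd e
    have hlead : ∀ m : ℕ, coeff e (d * G ^ m) = coeff e d * constantCoeff G ^ m := by
      intro m
      rw [coeff_mul, Finset.sum_eq_single (e, 0)]
      · simp
      · rintro ⟨a, b⟩ hab hne
        rw [Finset.HasAntidiagonal.mem_antidiagonal] at hab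
        rw [hlow a (by
          rcases Nat.eq_zero_or_pos b with rfl | hb
          · exact absurd (by simpa using hab) (fun h => hne (by simp [h]))
          · omega), zero_mul]
      · simp
    have hdez : de ≠ 0 := fun hz => he (by simp [hde, hz])
    obtain ⟨g0, hg0⟩ : ∃ z : ℤ, constantCoeff G = z := by
      refine int_of_almost_int hdez fun m => ?_
      obtain ⟨z, hz⟩ := mem_intSeries_iff.1 (hG m) e
      exact ⟨z, by rw [← hz, hlead, hde]⟩
    rcases i with _ | i
    · exact ⟨g0, by simpa using hg0⟩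
    set G' : PowerSeries ℂ := PowerSeries.mk fun n => coeff (n + 1) G with hG'
    have hdec : G = X * G' + C (g0 : ℂ) := by
      rw [← hg0]; exact PowerSeries.eq_X_mul_shift_add_const G
    have hG'int : ∀ m : ℕ, d * G' ^ m ∈ intSeries := by
      intro m
      rw [← X_pow_mul_mem_intSeries_iff m]
      have : X ^ m * (d * G' ^ m) = d * (G + C ((-g0 : ℤ) : ℂ)) ^ m := by
        rw [hdec]; push_cast; rw [map_neg]; ring
      rw [this, add_pow, Finset.mul_sum]
      refine sum_mem fun j _ => ?_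
      rw [show d * (G ^ j * C ((-g0 : ℤ) : ℂ) ^ (m - j) * (m.choose j : PowerSeries ℂ))
        = d * G ^ j * (C ((-g0 : ℤ) : ℂ) ^ (m - j) * (m.choose j : PowerSeries ℂ)) by ring]
      exact mul_mem (hG j) (mul_mem (pow_mem (C_int_mem_intSeries _) _) (natCast_mem _ _))
    obtain ⟨z, hz⟩ := ih G' hG'int i (by omega)
    exact ⟨z, by rw [← hz, hG']; simp⟩

/-- A series has bounded denominators. -/
def IsBD (F : PowerSeries ℂ) : Prop := ∃ c : ℤ, c ≠ 0 ∧ C (c : ℂ) * F ∈ intSeries

theorem isBD_of_mem {F : PowerSeries ℂ} (h : F ∈ intSeries) : IsBD F :=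
  ⟨1, one_ne_zero, by simpa using h⟩

theorem IsBD.mul {F G : PowerSeries ℂ} (hF : IsBD F) (hG : IsBD G) : IsBD (F * G) := by
  obtain ⟨a, ha, hA⟩ := hF
  obtain ⟨b, hb, hB⟩ := hG
  refine ⟨a * b, mul_ne_zero ha hb, ?_⟩
  convert mul_mem hA hB using 1
  push_cast
  rw [map_mul]
  ring

theorem IsBD.add {F G : PowerSeries ℂ} (hF : IsBD F) (hG : IsBD G) : IsBD (F + G) := by
  obtain ⟨a, ha, hA⟩ := hF
  obtain ⟨b, hb, hB⟩ := hG
  refine ⟨a * b, mul_ne_zero ha hb, ?_⟩
  convert add_mem (mul_mem (C_int_mem_intSeries b) hA) (mul_mem (C_int_mem_intSeries a) hB) using 1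
  push_cast
  rw [map_mul]
  ring

theorem isBD_C_rat (r : ℚ) : IsBD (C (r : ℂ)) := by
  refine ⟨r.den, by simp, ?_⟩
  convert C_int_mem_intSeries r.num using 1
  rw [← map_mul]
  congr 1
  have h := congrArg (fun x : ℚ => (x : ℂ)) r.den_mul_eq_num
  simp only [Rat.cast_mul, Rat.cast_natCast, Rat.cast_intCast] at h
  exact_mod_cast h

theorem IsBD.exists_rat {F : PowerSeries ℂ} (hF : IsBD F) (n : ℕ) : ∃ r : ℚ, coeff n F = r := by
  obtain ⟨c, hc, h⟩ := hF
  obtain ⟨z, hz⟩ := mem_intSeries_iff.1 h n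
  refine ⟨z / c, ?_⟩
  rw [coeff_C_mul] at hz
  have hcc : (c : ℂ) ≠ 0 := Int.cast_ne_zero.2 hc
  push_cast
  field_simp
  linear_combination hz

/-- The `ℂ`-span of series with bounded denominators. -/
def bdSpan : Submodule ℂ (PowerSeries ℂ) := Submodule.span ℂ {F | IsBD F}

theorem IsBD.mem_bdSpan {F : PowerSeries ℂ} (h : IsBD F) : F ∈ bdSpan := Submodule.subset_span h

theorem bdSpan_mul {F G : PowerSeries ℂ} (hF : F ∈ bdSpan) (hG : G ∈ bdSpan) : F * G ∈ bdSpan := by
  induction hF, hG using Submodule.span_induction₂ with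
  | mem_mem x y hx hy => exact (IsBD.mul hx hy).mem_bdSpan
  | zero_left y hy => simp
  | zero_right x hx => simp
  | add_left x y z hx hy hz h₁ h₂ => rw [add_mul]; exact add_mem h₁ h₂
  | add_right x y z hx hy hz h₁ h₂ => rw [mul_add]; exact add_mem h₁ h₂
  | smul_left r x y hx hy h => rw [smul_mul_assoc]; exact bdSpan.smul_mem r h
  | smul_right r x y hx hy h => rw [mul_smul_comm]; exact bdSpan.smul_mem r h

theorem bdSpan_one : (1 : PowerSeries ℂ) ∈ bdSpan := (isBD_of_mem (one_mem _)).mem_bdSpan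

theorem bdSpan_pow {F : PowerSeries ℂ} (hF : F ∈ bdSpan) (n : ℕ) : F ^ n ∈ bdSpan := by
  induction n with
  | zero => simpa using bdSpan_one
  | succ n ih => rw [pow_succ]; exact bdSpan_mul ih hF

/-- Apply a `ℚ`-linear functional to all coefficients. -/
def mapFun (l : ℂ →ₗ[ℚ] ℚ) : PowerSeries ℂ →+ PowerSeries ℂ where
  toFun F := PowerSeries.mk fun n => (l (coeff n F) : ℂ)
  map_zero' := by ext n; simp
  map_add' F G := by ext n; simp

theorem coeff_mapFun (l : ℂ →ₗ[ℚ] ℚ) (F : PowerSeries ℂ) (n : ℕ) :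
    coeff n (mapFun l F) = (l (coeff n F) : ℂ) := by
  simp [mapFun]

theorem mapFun_mul_rat (l : ℂ →ₗ[ℚ] ℚ) (F G : PowerSeries ℂ)
    (hG : ∀ n, ∃ r : ℚ, coeff n G = r) : mapFun l (F * G) = mapFun l F * G := by
  ext n
  simp only [coeff_mapFun, coeff_mul, map_sum, Rat.cast_sum]
  refine Finset.sum_congr rfl fun x _ => ?_
  obtain ⟨r, hr⟩ := hG x.2
  rw [hr, show coeff x.1 F * (r : ℂ) = r • coeff x.1 F by rw [mul_comm, Rat.smul_def], map_smul]
  push_cast [smul_eq_mul]
  ring

theorem mapFun_C_rat (l : ℂ →ₗ[ℚ] ℚ) (h1 : l 1 = 1) : mapFun l 1 = 1 := by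
  ext n
  rw [coeff_mapFun, coeff_one]
  split_ifs <;> simp [h1]

theorem isBD_mapFun_of_mem_bdSpan {F : PowerSeries ℂ} (h : F ∈ bdSpan) :
    ∀ l : ℂ →ₗ[ℚ] ℚ, IsBD (mapFun l F) := by
  induction h using Submodule.span_induction with
  | mem x hx =>
    intro l
    have : mapFun l x = C (l 1 : ℂ) * x := by
      ext n
      obtain ⟨r, hr⟩ := IsBD.exists_rat hx n
      rw [coeff_mapFun, coeff_C_mul, hr, show (r : ℂ) = r • (1 : ℂ) by simp, map_smul]
      push_cast [smul_eq_mul]
      simp [mul_comm]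
    rw [this]
    exact (isBD_C_rat _).mul hx
  | zero => intro l; simpa using isBD_of_mem (zero_mem intSeries)
  | add x y _ _ hx hy => intro l; simpa using (hx l).add (hy l)
  | smul c x _ hx =>
    intro l
    convert hx (l.comp (LinearMap.mulLeft ℚ c)) using 1
    ext n
    simp [coeff_mapFun]

theorem exists_functional {d : ℂ} (hd : d ≠ 0) : ∃ l : ℂ →ₗ[ℚ] ℚ, l d = 1 := by
  obtain ⟨g, hg⟩ := LinearMap.exists_leftInverse_of_injective (LinearMap.toSpanSingleton ℚ ℂ d)
    (LinearMap.ker_eq_bot.2 fun a b h => by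
      simpa [LinearMap.toSpanSingleton, Rat.smul_def, hd] using h)
  exact ⟨g, by simpa [LinearMap.toSpanSingleton] using LinearMap.congr_fun hg 1⟩

theorem exists_common_den {ι : Type*} (s : Finset ι) (F : ι → PowerSeries ℂ)
    (h : ∀ i ∈ s, IsBD (F i)) : ∃ c : ℤ, c ≠ 0 ∧ ∀ i ∈ s, C (c : ℂ) * F i ∈ intSeries := by
  classical
  induction s using Finset.induction_on with
  | empty => exact ⟨1, one_ne_zero, by simp⟩
  | insert a t hat ih =>
    obtain ⟨c, hc, hct⟩ := ih fun i hi => h i (Finset.mem_insert_of_mem hi)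
    obtain ⟨b, hb, hbt⟩ := h a (Finset.mem_insert_self a t)
    refine ⟨c * b, mul_ne_zero hc hb, fun i hi => ?_⟩
    rcases Finset.mem_insert.1 hi with rfl | hi
    · convert mul_mem (C_int_mem_intSeries c) hbt using 1
      push_cast; rw [map_mul]; ring
    · convert mul_mem (C_int_mem_intSeries b) (hct i hi) using 1
      push_cast; rw [map_mul]; ring

/-- A series in the fraction field of bounded-denominator series, integral over them, has bounded
denominators. -/
theorem isBD_of_root_of_isBD {D R F : PowerSeries ℂ} (hD : IsBD D) (hD0 : D ≠ 0) (hR : IsBD R)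
    (hDF : D * F = R) {n : ℕ} (hn : 0 < n) {a : ℕ → PowerSeries ℂ} (ha : ∀ i < n, IsBD (a i))
    (heq : F ^ n + ∑ i ∈ Finset.range n, a i * F ^ i = 0) : IsBD F := by
  obtain ⟨cD, hcD, hD'⟩ := hD
  obtain ⟨cR, hcR, hR'⟩ := hR
  obtain ⟨ca, hca, ha'⟩ := exists_common_den (Finset.range n) a fun i hi =>
    ha i (Finset.mem_range.1 hi)
  set c : ℤ := cD * cR * ca with hc
  have hc0 : c ≠ 0 := mul_ne_zero (mul_ne_zero hcD hcR) hca
  refine ⟨c, hc0, ?_⟩
  set G := C (c : ℂ) * F with hG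
  set d := C (c : ℂ) * D with hd
  have hcast : C (c : ℂ) = C (cD : ℂ) * C (cR : ℂ) * C (ca : ℂ) := by
    rw [hc]; push_cast; rw [map_mul, map_mul]
  have hdint : d ∈ intSeries := by
    convert mul_mem (mul_mem (C_int_mem_intSeries cR) (C_int_mem_intSeries ca)) hD' using 1
    rw [hd, hcast]; ring
  have hd0 : d ≠ 0 := by
    refine mul_ne_zero (fun h => hc0 ?_) hD0
    simpa using congrArg (coeff 0) h
  have hdG : d * G ∈ intSeries := by
    convert mul_mem (mul_mem (mul_mem (C_int_mem_intSeries c) (C_int_mem_intSeries cD))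
      (C_int_mem_intSeries ca)) hR' using 1
    rw [hd, hG, ← hDF, hcast]; ring
  refine mem_intSeries_of_almost (d := d ^ n) (pow_mem hdint n) (pow_ne_zero _ hd0) fun m => ?_
  induction m using Nat.strong_induction_on with
  | _ m ih =>
    rcases Nat.lt_or_ge m n with hm | hm
    · obtain ⟨r, rfl⟩ : ∃ r, n = m + r := ⟨n - m, by omega⟩
      rw [show d ^ (m + r) * G ^ m = (d * G) ^ m * d ^ r by rw [pow_add, mul_pow]; ring]
      exact mul_mem (pow_mem hdG m) (pow_mem hdint r)
    · obtain ⟨r, rfl⟩ : ∃ r, m = n + r := ⟨m - n, by omega⟩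
      have hGn : G ^ n = -∑ i ∈ Finset.range n, C (c : ℂ) ^ (n - i) * a i * G ^ i := by
        have : C (c : ℂ) ^ n * ∑ i ∈ Finset.range n, a i * F ^ i =
            ∑ i ∈ Finset.range n, C (c : ℂ) ^ (n - i) * a i * G ^ i := by
          rw [Finset.mul_sum]
          refine Finset.sum_congr rfl fun i hi => ?_
          obtain ⟨u, rfl⟩ : ∃ u, n = i + u := ⟨n - i, by have := Finset.mem_range.1 hi; omega⟩
          rw [hG, Nat.add_sub_cancel_left, mul_pow, pow_add]
          ring
        rw [← this, hG, mul_pow]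
        linear_combination (C (c : ℂ) ^ n) * heq
      rw [pow_add, hGn, neg_mul, mul_neg, Finset.sum_mul, Finset.mul_sum]
      refine neg_mem (sum_mem fun i hi => ?_)
      rw [Finset.mem_range] at hi
      have hci : C (c : ℂ) ^ (n - i) * a i ∈ intSeries := by
        obtain ⟨u, hu⟩ : ∃ u, n - i = u + 1 := ⟨n - i - 1, by omega⟩
        convert mul_mem (mul_mem (mul_mem (pow_mem (C_int_mem_intSeries c) u)
          (C_int_mem_intSeries cD)) (C_int_mem_intSeries cR))
            (ha' i (Finset.mem_range.2 hi)) using 1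
        rw [hu, pow_succ, hcast]; ring
      convert mul_mem hci (ih (r + i) (by omega)) using 1
      ring

/-- Rational series satisfying the hypotheses over the `ℂ`-span have bounded denominators. -/
theorem isBD_of_root {D R F : PowerSeries ℂ} (hD : D ∈ bdSpan) (hD0 : D ≠ 0) (hR : R ∈ bdSpan)
    (hDF : D * F = R) (hF : ∀ n, ∃ r : ℚ, coeff n F = r) {n : ℕ} (hn : 0 < n)
    {a : ℕ → PowerSeries ℂ} (ha : ∀ i < n, a i ∈ bdSpan)
    (heq : F ^ n + ∑ i ∈ Finset.range n, a i * F ^ i = 0) : IsBD F := by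
  have hFpow : ∀ (i m : ℕ), ∃ r : ℚ, coeff m (F ^ i) = r := by
    intro i m
    choose r hr using hF
    have : F = PowerSeries.map (algebraMap ℚ ℂ) (PowerSeries.mk r) := by
      ext m; simp [hr]
    exact ⟨coeff m ((PowerSeries.mk r : PowerSeries ℚ) ^ i),
      by rw [this, ← map_pow, coeff_map]; rfl⟩
  obtain ⟨l₁, hl₁⟩ := exists_functional (one_ne_zero (α := ℂ))
  obtain ⟨e, he⟩ : ∃ e, coeff e D ≠ 0 := by
    by_contra hc
    push Not at hc
    exact hD0 (PowerSeries.ext fun m => by simpa using hc m)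
  obtain ⟨l₂, hl₂⟩ := exists_functional he
  have hD' : mapFun l₂ D ≠ 0 := fun h => by
    have := congrArg (coeff e) h
    simp [coeff_mapFun, hl₂] at this
  refine isBD_of_root_of_isBD (isBD_mapFun_of_mem_bdSpan hD l₂) hD'
    (isBD_mapFun_of_mem_bdSpan hR l₂)
    (by rw [← hDF, mapFun_mul_rat l₂ D F hF]) hn
    (fun i hi => isBD_mapFun_of_mem_bdSpan (ha i hi) l₁) ?_
  have h := congrArg (mapFun l₁) heq
  rw [map_zero, map_add, map_sum, ← one_mul (F ^ n), mapFun_mul_rat l₁ _ _ (hFpow n),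
    mapFun_C_rat l₁ hl₁, one_mul] at h
  rw [← h]
  congr 1
  exact Finset.sum_congr rfl fun i _ => (mapFun_mul_rat l₁ _ _ (hFpow i)).symm

end FLTAgent.MFIntegral
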