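import Mathlib
import Fermat.Agent.MFIntegral.IsMF
import Fermat.Agent.MFIntegral.QSeries

/-!
# Level one

Level one: modular forms are spanned by forms with `q`-expansions of bounded denominators.
-/

set_option autoImplicit false

noncomputable section

namespace FLTAgent.MFIntegral

open UpperHalfPlane Filter
open scoped Manifold Topology MatrixGroups ModularForm

theorem isMF_coe_levelOne {k : ℤ} (F : ModularForm 𝒮ℒ k) : IsMF k ⊤ F := by
  refine ⟨fun γ _ => F.slash_action_eq' _ ⟨γ, rfl⟩, F.holo', fun γ => ?_⟩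
  exact F.bdd_at_cusps' (isCusp_SL2Z_iff'.2 ⟨γ, rfl⟩) _ rfl

/-- Level one bundled form. -/
def IsMF.toMF₁ {k : ℤ} {f : ℍ → ℂ} (hf : IsMF k ⊤ f) : ModularForm 𝒮ℒ k where
  toFun := f
  slash_action_eq' := by
    rintro _ ⟨γ, rfl⟩
    exact hf.slash γ (Subgroup.mem_top γ)
  holo' := hf.holo
  bdd_at_cusps' {c} hc := by
    rw [OnePoint.isBoundedAt_iff_forall_SL2Z hc]
    exact fun γ _ => hf.bdd γ

@[simp] theorem IsMF.coe_toMF₁ {k : ℤ} {f : ℍ → ℂ} (hf : IsMF k ⊤ f) : ⇑hf.toMF₁ = f := rfl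

theorem mem_PB_top {k : ℤ} {f : ℍ → ℂ} (hf : IsMF k ⊤ f) : f ∈ PB :=
  hf.mem_PB (Subgroup.mem_top _)

/-- Forms of level one and weight `k` with bounded denominators. -/
def goodGen (k : ℤ) : Set (ℍ → ℂ) := {g | IsMF k ⊤ g ∧ IsBD (qE g)}

theorem isMF_of_mem_span {k : ℤ} {f : ℍ → ℂ} (h : f ∈ Submodule.span ℂ (goodGen k)) :
    IsMF k ⊤ f := by
  induction h using Submodule.span_induction with
  | mem x hx => exact hx.1
  | zero => exact isMF_zero
  | add x y _ _ hx hy => exact hx.add hy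
  | smul c x _ hx => exact hx.smul c

theorem mul_mem_span {k l : ℤ} {a f : ℍ → ℂ} (ha : a ∈ goodGen l)
    (h : f ∈ Submodule.span ℂ (goodGen k)) : a * f ∈ Submodule.span ℂ (goodGen (l + k)) := by
  induction h using Submodule.span_induction with
  | mem x hx =>
    refine Submodule.subset_span ⟨ha.1.mul hx.1, ?_⟩
    rw [qE_mul (mem_PB_top ha.1) (mem_PB_top hx.1)]
    exact ha.2.mul hx.2
  | zero => simp
  | add x y _ _ hx hy => rw [mul_add]; exact add_mem hx hy
  | smul c x _ hx => rw [mul_smul_comm]; exact Submodule.smul_mem _ c hx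

theorem goodGen_pow {k : ℤ} {a : ℍ → ℂ} (ha : a ∈ goodGen k) (n : ℕ) :
    a ^ n ∈ goodGen (n * k) := by
  refine ⟨ha.1.pow n, ?_⟩
  rw [qE_pow (mem_PB_top ha.1)]
  induction n with
  | zero => exact isBD_of_mem (by simp [one_mem])
  | succ n ih => rw [pow_succ]; exact ih.mul ha.2

theorem E_mem_goodGen {k : ℕ} (hk : 3 ≤ k) (hk2 : Even k) :
    (⇑(ModularForm.E hk) : ℍ → ℂ) ∈ goodGen k := by
  refine ⟨isMF_coe_levelOne _, ?_⟩
  set q : ℚ := -(2 * k / bernoulli k) with hq
  refine ⟨q.den, by simp, mem_intSeries_iff.2 fun n => ?_⟩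
  rw [PowerSeries.coeff_C_mul, qE, EisensteinSeries.E_qExpansion_coeff hk hk2]
  split_ifs with h
  · exact ⟨q.den, by simp⟩
  · refine ⟨q.num * (ArithmeticFunction.sigma (k - 1) n : ℕ), ?_⟩
    have hd : ((q.den : ℚ) : ℂ) * (q : ℂ) = (q.num : ℂ) := by
      rw [← Rat.cast_mul, Rat.den_mul_eq_num]
      simp
    have hqc : (q : ℂ) = -(2 * (k : ℂ) / (bernoulli k : ℂ)) := by simp [hq]
    rw [← hqc, ← mul_assoc]
    push_cast at hd ⊢
    rw [hd]

theorem discriminant_mem_goodGen : (ModularForm.discriminant : ℍ → ℂ) ∈ goodGen 12 := by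
  have h4 := E_mem_goodGen (k := 4) (by norm_num) ⟨2, rfl⟩
  have h6 := E_mem_goodGen (k := 6) (by norm_num) ⟨3, rfl⟩
  have h4' := goodGen_pow h4 3
  have h6' := goodGen_pow h6 2
  have hid : (ModularForm.discriminant : ℍ → ℂ) =
      (1 / 1728 : ℂ) • ((⇑ModularForm.E₄ : ℍ → ℂ) ^ 3 - (⇑ModularForm.E₆ : ℍ → ℂ) ^ 2) := by
    ext z
    rw [ModularForm.discriminant_eq_E₄_cube_sub_E₆_sq]
    simp [div_eq_inv_mul]
  refine ⟨hid ▸ ((h4'.1.cast (by norm_num)).sub (h6'.1.cast (by norm_num))).smul _, ?_⟩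
  rw [hid, qE_smul (sub_mem (mem_PB_top h4'.1) (mem_PB_top h6'.1)),
    qE_sub (mem_PB_top h4'.1) (mem_PB_top h6'.1), PowerSeries.smul_eq_C_mul]
  refine IsBD.mul (by simpa using isBD_C_rat (1 / 1728)) ?_
  rw [sub_eq_add_neg, show -qE ((⇑ModularForm.E₆ : ℍ → ℂ) ^ 2) =
    PowerSeries.C ((-1 : ℤ) : ℂ) * qE ((⇑ModularForm.E₆ : ℍ → ℂ) ^ 2) by simp]
  exact h4'.2.add ((isBD_of_mem (C_int_mem_intSeries _)).mul h6'.2)

/-- Every level one form is a combination of forms with bounded denominators. -/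
theorem levelOne_mem_span {k : ℤ} {f : ℍ → ℂ} (hf : IsMF k ⊤ f) :
    f ∈ Submodule.span ℂ (goodGen k) := by
  suffices H : ∀ (m : ℕ) (k : ℤ) (f : ℍ → ℂ), k.toNat ≤ m → IsMF k ⊤ f →
      f ∈ Submodule.span ℂ (goodGen k) from H _ k f le_rfl hf
  intro m
  induction m using Nat.strong_induction_on with
  | _ m ih =>
    intro k f hkm hf
    rcases lt_trichotomy k 0 with hk | rfl | hk
    · have : f = 0 := ModularFormClass.levelOne_neg_weight_eq_zero hk hf.toMF₁
      simp [this]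
    · obtain ⟨c, hc⟩ := ModularFormClass.levelOne_weight_zero_const hf.toMF₁
      have : f = c • (1 : ℍ → ℂ) := by
        rw [← hf.coe_toMF₁, hc]
        ext z
        simp
      rw [this]
      refine Submodule.smul_mem _ c (Submodule.subset_span ⟨isMF_one, ?_⟩)
      rw [qE_one]
      exact isBD_of_mem (one_mem _)
    rcases Int.even_or_odd k with hev | hod
    swap
    · have h0 := ModularForm.levelOne_odd_weight_eq_zero hod hf.toMF₁
      have : f = 0 := by
        have := congrArg (fun F : ModularForm 𝒮ℒ k => (F : ℍ → ℂ)) h0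
        simpa using this
      simp [this]
    obtain ⟨kn, rfl⟩ : ∃ kn : ℕ, k = kn := ⟨k.toNat, by omega⟩
    have hev' : Even kn := by exact_mod_cast hev
    by_cases hk2 : kn = 2
    · subst hk2
      have h0 := rank_zero_iff_forall_zero.1 ModularForm.levelOne_weight_two_rank_zero hf.toMF₁
      have : f = 0 := by
        have := congrArg (fun F : ModularForm 𝒮ℒ 2 => (F : ℍ → ℂ)) h0
        simpa using this
      simp [this]
    have hk4 : 3 ≤ kn := by
      obtain ⟨r, rfl⟩ := hev'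
      omega
    have hE := E_mem_goodGen hk4 hev'
    set c := PowerSeries.coeff 0 (qE f) with hc
    have hdiff : IsMF (kn : ℤ) ⊤ (f - c • (⇑(ModularForm.E hk4) : ℍ → ℂ)) :=
      hf.sub (hE.1.smul c)
    have h0 : (qExpansion 1 hdiff.toMF₁).coeff 0 = 0 := by
      show PowerSeries.coeff 0 (qE (f - c • (⇑(ModularForm.E hk4) : ℍ → ℂ))) = 0
      rw [qE_sub (mem_PB_top hf) (mem_PB_top (hE.1.smul c)), qE_smul (mem_PB_top hE.1), map_sub,
        PowerSeries.coeff_smul, show PowerSeries.coeff 0 (qE ⇑(ModularForm.E hk4)) = 1 from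
          EisensteinSeries.E_qExpansion_coeff_zero hk4 hev']
      simp [hc]
    set G := CuspForm.discriminantEquiv (ModularForm.toCuspForm hdiff.toMF₁ h0) with hG
    have hfG :
        f = c • (⇑(ModularForm.E hk4) : ℍ → ℂ) + ModularForm.discriminant * (⇑G : ℍ → ℂ) := by
      rw [hG, ModularForm.discriminant_mul_discriminantEquiv]
      ext z
      simp [ModularForm.toCuspForm_apply]
    have hGmem := ih (((kn : ℤ) - 12).toNat) (by omega) _ (⇑G) le_rfl (isMF_coe_levelOne G)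
    rw [hfG]
    refine add_mem (Submodule.smul_mem _ c (Submodule.subset_span hE)) ?_
    have := mul_mem_span discriminant_mem_goodGen hGmem
    rwa [show (12 : ℤ) + ((kn : ℤ) - 12) = kn by ring] at this

theorem qE_levelOne_mem_bdSpan {k : ℤ} {f : ℍ → ℂ} (hf : IsMF k ⊤ f) : qE f ∈ bdSpan := by
  have h := levelOne_mem_span hf
  induction h using Submodule.span_induction with
  | mem x hx => exact hx.2.mem_bdSpan
  | zero => rw [qE_zero]; exact zero_mem _
  | add x y hx hy ihx ihy =>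
    rw [qE_add (mem_PB_top (isMF_of_mem_span hx)) (mem_PB_top (isMF_of_mem_span hy))]
    exact add_mem (ihx (isMF_of_mem_span hx)) (ihy (isMF_of_mem_span hy))
  | smul c x hx ih =>
    rw [qE_smul (mem_PB_top (isMF_of_mem_span hx))]
    exact bdSpan.smul_mem c (ih (isMF_of_mem_span hx))

/-- Automorphisms of `ℂ` act on level one forms. -/
theorem levelOne_conj (σ : ℂ ≃+* ℂ) {k : ℤ} {f : ℍ → ℂ} (hf : IsMF k ⊤ f) :
    ∃ g, IsMF k ⊤ g ∧ qE g = PowerSeries.map (σ : ℂ →+* ℂ) (qE f) := by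
  have h := levelOne_mem_span hf
  induction h using Submodule.span_induction with
  | mem x hx =>
    refine ⟨x, hx.1, ?_⟩
    ext n
    obtain ⟨r, hr⟩ := hx.2.exists_rat n
    simp [hr]
  | zero => exact ⟨0, isMF_zero, by simp [qE_zero]⟩
  | add x y hx hy ihx ihy =>
    obtain ⟨x', hx', ex⟩ := ihx (isMF_of_mem_span hx)
    obtain ⟨y', hy', ey⟩ := ihy (isMF_of_mem_span hy)
    refine ⟨x' + y', hx'.add hy', ?_⟩
    rw [qE_add (mem_PB_top hx') (mem_PB_top hy'),
      qE_add (mem_PB_top (isMF_of_mem_span hx)) (mem_PB_top (isMF_of_mem_span hy)), ex, ey, map_add]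
  | smul c x hx ih =>
    obtain ⟨x', hx', ex⟩ := ih (isMF_of_mem_span hx)
    refine ⟨σ c • x', hx'.smul _, ?_⟩
    rw [qE_smul (mem_PB_top hx'), qE_smul (mem_PB_top (isMF_of_mem_span hx)), ex]
    ext n
    simp

end FLTAgent.MFIntegral
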