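import Mathlib
import Fermat.Agent.MFIntegral.LevelOne

/-!
# Galois conjugation of forms

Galois conjugation and bounded denominators for forms on a finite index subgroup `Γ` of
`SL(2, ℤ)`, given a form with rational expansion whose stabiliser is `Γ`.
-/

set_option autoImplicit false

noncomputable section

namespace FLTAgent.MFIntegral

open UpperHalfPlane Filter Matrix.SpecialLinearGroup
open scoped Manifold Topology MatrixGroups ModularForm Pointwise

variable {Γ : Subgroup SL(2, ℤ)} {k l : ℤ}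

/-- An equivariant family of weight `k`. -/
structure IsEqFam {ι : Type*} [MulAction SL(2, ℤ) ι] (k : ℤ) (F : ι → ℍ → ℂ) : Prop where
  equiv : ∀ (γ : SL(2, ℤ)) (i : ι), F i ∣[k] γ = F (γ⁻¹ • i)
  holo : ∀ i, MDiff (F i)
  bdd : ∀ i, IsBoundedAtImInfty (F i)

theorem mdiff_finsetSum {ι : Type*} (s : Finset ι) (F : ι → ℍ → ℂ) (h : ∀ i ∈ s, MDiff (F i)) :
    MDiff (∑ i ∈ s, F i) := by
  induction s using Finset.cons_induction with
  | empty => rw [Finset.sum_empty]; exact mdifferentiable_const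
  | cons a t hat ih =>
    rw [Finset.sum_cons]
    exact (h a (Finset.mem_cons_self a t)).add (ih fun i hi => h i (Finset.mem_cons_of_mem hi))

theorem bdd_finsetSum {ι : Type*} (s : Finset ι) (F : ι → ℍ → ℂ)
    (h : ∀ i ∈ s, IsBoundedAtImInfty (F i)) : IsBoundedAtImInfty (∑ i ∈ s, F i) := by
  induction s using Finset.cons_induction with
  | empty => rw [Finset.sum_empty]; exact Filter.const_boundedAtFilter atImInfty (0 : ℂ)
  | cons a t hat ih =>
    rw [Finset.sum_cons]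
    exact (h a (Finset.mem_cons_self a t)).add (ih fun i hi => h i (Finset.mem_cons_of_mem hi))

theorem IsEqFam.sum_isMF {ι : Type*} [MulAction SL(2, ℤ) ι] {F : ι → ℍ → ℂ}
    (hF : IsEqFam k F) (S : Finset ι) (hS : ∀ (γ : SL(2, ℤ)) (i : ι), i ∈ S → γ • i ∈ S) :
    IsMF k ⊤ (∑ i ∈ S, F i) := by
  have hsl : ∀ γ : SL(2, ℤ), (∑ i ∈ S, F i) ∣[k] γ = ∑ i ∈ S, F i := by
    intro γ
    rw [SlashAction.sum_slash]
    exact Finset.sum_nbij' (fun i => γ⁻¹ • i) (fun i => γ • i) (fun i hi => hS _ i hi)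
      (fun i hi => hS _ i hi) (fun i _ => smul_inv_smul γ i) (fun i _ => inv_smul_smul γ i)
      (fun i _ => hF.equiv γ i)
  exact ⟨fun γ _ => hsl γ, mdiff_finsetSum S F fun i _ => hF.holo i,
    fun γ => by rw [hsl]; exact bdd_finsetSum S F fun i _ => hF.bdd i⟩

variable (Γ)

/-- The translates of `f` by the cosets of `Γ`. -/
def translate (k : ℤ) (f : ℍ → ℂ) (q : SL(2, ℤ) ⧸ Γ) : ℍ → ℂ :=
  f ∣[k] (Quotient.out q)⁻¹

variable {Γ}

theorem translate_mk {f : ℍ → ℂ} (hf : IsMF k Γ f) (g : SL(2, ℤ)) :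
    translate Γ k f (QuotientGroup.mk g) = f ∣[k] g⁻¹ := by
  obtain ⟨j, hj⟩ := QuotientGroup.mk_out_eq_mul Γ g
  rw [translate, hj, mul_inv_rev, SlashAction.slash_mul, hf.slash _ (inv_mem j.2)]

theorem translate_one {f : ℍ → ℂ} (hf : IsMF k Γ f) :
    translate Γ k f (QuotientGroup.mk (1 : SL(2, ℤ))) = f := by
  rw [translate_mk hf, inv_one, SlashAction.slash_one]

theorem translate_eqFam {f : ℍ → ℂ} (hf : IsMF k Γ f) : IsEqFam k (translate Γ k f) := by
  refine ⟨fun γ q => ?_, fun q => mdiff_slash hf.holo k _, fun q => hf.bdd _⟩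
  induction q using QuotientGroup.induction_on with
  | _ g =>
    rw [MulAction.Quotient.smul_mk, translate_mk hf, translate_mk hf, ← SlashAction.slash_mul]
    congr 1
    simp

theorem isEqFam_one {ι : Type*} [MulAction SL(2, ℤ) ι] :
    IsEqFam 0 (fun _ : ι => (1 : ℍ → ℂ)) :=
  ⟨fun γ _ => ModularForm.is_invariant_one γ, fun _ => mdifferentiable_const,
    fun _ => Filter.const_boundedAtFilter atImInfty (1 : ℂ)⟩

/-- The negative of an equivariant family. -/
theorem IsEqFam.neg {ι : Type*} [MulAction SL(2, ℤ) ι] {F : ι → ℍ → ℂ} (hF : IsEqFam k F) :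
    IsEqFam k (fun i => -F i) :=
  ⟨fun γ i => by rw [neg_slash_SL, hF.equiv], fun i => (hF.holo i).neg, fun i => (hF.bdd i).neg⟩

variable [DecidableEq (SL(2, ℤ) ⧸ Γ)]

theorem IsEqFam.finset_prod {F : SL(2, ℤ) ⧸ Γ → ℍ → ℂ} (hF : IsEqFam k F) (γ : SL(2, ℤ))
    (s : Finset (SL(2, ℤ) ⧸ Γ)) :
    (∏ q ∈ s, F q) ∣[k * s.card] γ = ∏ q ∈ γ⁻¹ • s, F q := by
  rw [prod_slash_SL, Finset.smul_finset_def,
    Finset.prod_image fun a _ b _ h => MulAction.injective γ⁻¹ h]
  exact Finset.prod_congr rfl fun q _ => hF.equiv γ q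

theorem holo_prod {ι : Type*} (s : Finset ι) (F : ι → ℍ → ℂ) (h : ∀ i ∈ s, MDiff (F i)) :
    MDiff (∏ i ∈ s, F i) := by
  induction s using Finset.cons_induction with
  | empty => rw [Finset.prod_empty]; exact mdifferentiable_const
  | cons a t hat ih =>
    rw [Finset.prod_cons]
    exact (h a (Finset.mem_cons_self a t)).mul (ih fun i hi => h i (Finset.mem_cons_of_mem hi))

theorem bdd_prod {ι : Type*} (s : Finset ι) (F : ι → ℍ → ℂ)
    (h : ∀ i ∈ s, IsBoundedAtImInfty (F i)) : IsBoundedAtImInfty (∏ i ∈ s, F i) := by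
  induction s using Finset.cons_induction with
  | empty => rw [Finset.prod_empty]; exact Filter.const_boundedAtFilter atImInfty (1 : ℂ)
  | cons a t hat ih =>
    rw [Finset.prod_cons]
    exact (h a (Finset.mem_cons_self a t)).mul (ih fun i hi => h i (Finset.mem_cons_of_mem hi))

variable [Fintype (SL(2, ℤ) ⧸ Γ)]

/-- Coefficient of a degree `j` term in `∏ (x - F q)`. -/
def eCoef (F : SL(2, ℤ) ⧸ Γ → ℍ → ℂ) (j : ℕ) : ℍ → ℂ :=
  ∑ s ∈ Finset.univ.powersetCard j, ∏ q ∈ s, -F q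

theorem smul_mem_powersetCard {j : ℕ} (γ : SL(2, ℤ)) (s : Finset (SL(2, ℤ) ⧸ Γ))
    (h : s ∈ (Finset.univ : Finset (SL(2, ℤ) ⧸ Γ)).powersetCard j) :
    γ • s ∈ (Finset.univ : Finset (SL(2, ℤ) ⧸ Γ)).powersetCard j := by
  simpa [Finset.mem_powersetCard] using h

theorem eCoef_isMF {F : SL(2, ℤ) ⧸ Γ → ℍ → ℂ} (hF : IsEqFam k F) (j : ℕ) :
    IsMF (j * k) ⊤ (eCoef F j) := by
  classical
  let G : Finset (SL(2, ℤ) ⧸ Γ) → ℍ → ℂ := fun s => if s.card = j then ∏ q ∈ s, -F q else 0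
  have hG : IsEqFam (j * k) G := by
    refine ⟨fun γ s => ?_, fun s => ?_, fun s => ?_⟩
    · by_cases h : s.card = j
      · simp only [G, h, Finset.card_smul_finset, if_true]
        rw [← hF.neg.finset_prod γ s, h, mul_comm]
      · simp [G, h, Finset.card_smul_finset]
    · by_cases h : s.card = j
      · simp only [G, h, if_true]
        exact holo_prod _ _ fun q _ => (hF.holo q).neg
      · simp only [G, h, if_false]
        exact mdifferentiable_const
    · by_cases h : s.card = j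
      · simp only [G, h, if_true]
        exact bdd_prod _ _ fun q _ => (hF.bdd q).neg
      · simp only [G, h, if_false]
        exact Filter.const_boundedAtFilter atImInfty (0 : ℂ)
  have : eCoef F j = ∑ s ∈ Finset.univ.powersetCard j, G s :=
    Finset.sum_congr rfl fun s hs => by simp [G, (Finset.mem_powersetCard.1 hs).2]
  rw [this]
  exact hG.sum_isMF _ smul_mem_powersetCard

omit [DecidableEq (SL(2, ℤ) ⧸ Γ)] in
theorem eCoef_zeroAt {F : SL(2, ℤ) ⧸ Γ → ℍ → ℂ} (hF : ∀ q, IsZeroAtImInfty (F q)) {j : ℕ}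
    (hj : 0 < j) : IsZeroAtImInfty (eCoef F j) := by
  have h : ∀ s ∈ (Finset.univ : Finset (SL(2, ℤ) ⧸ Γ)).powersetCard j,
      Tendsto (fun τ => ∏ q ∈ s, -F q τ) atImInfty (𝓝 0) := by
    intro s hs
    have := tendsto_finsetProd s (fun q _ => (hF q).neg)
    rw [show (∏ _q ∈ s, (0 : ℂ)) = 0 by simp [(Finset.mem_powersetCard.1 hs).2, hj.ne']] at this
    simpa using this
  have := tendsto_finsetSum _ h
  simpa [IsZeroAtImInfty, Filter.ZeroAtFilter, eCoef, Finset.sum_fn, Finset.prod_fn] using this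

theorem eCoef_poly (F : SL(2, ℤ) ⧸ Γ → ℍ → ℂ) (q₀ : SL(2, ℤ) ⧸ Γ) (τ : ℍ) :
    F q₀ τ ^ Fintype.card (SL(2, ℤ) ⧸ Γ) + ∑ i ∈ Finset.range (Fintype.card (SL(2, ℤ) ⧸ Γ)),
      eCoef F (Fintype.card (SL(2, ℤ) ⧸ Γ) - i) τ * F q₀ τ ^ i = 0 := by
  set n := Fintype.card (SL(2, ℤ) ⧸ Γ) with hn
  set x := F q₀ τ with hx
  have h : ∏ q : SL(2, ℤ) ⧸ Γ, (-F q τ + x) = 0 :=
    Finset.prod_eq_zero (Finset.mem_univ q₀) (by simp [hx])
  rw [Finset.prod_add, Finset.sum_powerset, Finset.card_univ, ← hn] at h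
  rw [← h, ← Finset.sum_range_reflect, Finset.sum_range_succ', add_comm]
  congr 1
  · refine Finset.sum_congr rfl fun i hi => ?_
    rw [Finset.mem_range] at hi
    rw [eCoef, Finset.sum_apply, Finset.sum_mul,
      show n - (n - 1 - i) = i + 1 by omega]
    refine Finset.sum_congr rfl fun s hs => ?_
    rw [Finset.prod_apply, Finset.prod_const, Finset.card_univ_sdiff,
      (Finset.mem_powersetCard.1 hs).2, ← hn, show n - (i + 1) = n - 1 - i by omega]
    simp
  · simp [← hn]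

/-- Coefficient of the interpolation polynomial `∑ F q * ∏_{r ≠ q} (x - H r)`. -/
def cCoef (F H : SL(2, ℤ) ⧸ Γ → ℍ → ℂ) (j : ℕ) : ℍ → ℂ :=
  ∑ q, ∑ s ∈ (Finset.univ.erase q).powersetCard j, F q * ∏ r ∈ s, -H r

theorem cCoef_isMF {F H : SL(2, ℤ) ⧸ Γ → ℍ → ℂ} (hF : IsEqFam k F) (hH : IsEqFam l H) (j : ℕ) :
    IsMF (k + j * l) ⊤ (cCoef F H j) := by
  classical
  let G : (SL(2, ℤ) ⧸ Γ) × Finset (SL(2, ℤ) ⧸ Γ) → ℍ → ℂ := fun p =>
    if p.2.card = j then F p.1 * ∏ r ∈ p.2, -H r else 0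
  have hG : IsEqFam (k + j * l) G := by
    refine ⟨fun γ p => ?_, fun p => ?_, fun p => ?_⟩
    · by_cases h : p.2.card = j
      · simp only [G, Prod.smul_fst, Prod.smul_snd, h, Finset.card_smul_finset, if_true]
        rw [← hH.neg.finset_prod γ p.2, h, mul_comm l, ModularForm.mul_slash_SL2, hF.equiv]
      · simp [G, h, Finset.card_smul_finset]
    · by_cases h : p.2.card = j
      · simp only [G, h, if_true]
        exact (hF.holo _).mul (holo_prod _ _ fun q _ => (hH.holo q).neg)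
      · simp only [G, h, if_false]
        exact mdifferentiable_const
    · by_cases h : p.2.card = j
      · simp only [G, h, if_true]
        exact (hF.bdd _).mul (bdd_prod _ _ fun q _ => (hH.bdd q).neg)
      · simp only [G, h, if_false]
        exact Filter.const_boundedAtFilter atImInfty (0 : ℂ)
  let S : Finset ((SL(2, ℤ) ⧸ Γ) × Finset (SL(2, ℤ) ⧸ Γ)) :=
    ((Finset.univ : Finset (SL(2, ℤ) ⧸ Γ)) ×ˢ Finset.univ.powersetCard j).filter
      (fun p => p.1 ∉ p.2)
  have hS : ∀ (γ : SL(2, ℤ)) p, p ∈ S → γ • p ∈ S := by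
    intro γ p hp
    simp only [S, Finset.mem_filter, Finset.mem_product, Finset.mem_univ, true_and] at hp ⊢
    exact ⟨smul_mem_powersetCard γ _ hp.1, fun h => hp.2 (Finset.smul_mem_smul_finset_iff γ |>.1 h)⟩
  have : cCoef F H j = ∑ p ∈ S, G p := by
    rw [cCoef, Finset.sum_finset_product' S Finset.univ
      (fun q => (Finset.univ.erase q).powersetCard j) (f := fun q s => G (q, s))]
    · exact Finset.sum_congr rfl fun q _ => Finset.sum_congr rfl fun s hs => by
        simp [G, (Finset.mem_powersetCard.1 hs).2]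
    · intro p
      simp [S, Finset.mem_powersetCard, Finset.subset_erase]
      tauto
  rw [this]
  exact hG.sum_isMF S hS

theorem cCoef_interp (F H : SL(2, ℤ) ⧸ Γ → ℍ → ℂ) (q₀ : SL(2, ℤ) ⧸ Γ) :
    ∑ j ∈ Finset.range (Fintype.card (SL(2, ℤ) ⧸ Γ)),
        cCoef F H j * H q₀ ^ (Fintype.card (SL(2, ℤ) ⧸ Γ) - 1 - j) =
      F q₀ * ∏ r ∈ Finset.univ.erase q₀, (H q₀ - H r) := by
  set n := Fintype.card (SL(2, ℤ) ⧸ Γ) with hn
  have hn0 : 0 < n := Fintype.card_pos_iff.2 ⟨q₀⟩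
  have hexp : ∀ q, F q * ∏ r ∈ Finset.univ.erase q, (-H r + H q₀) =
      ∑ j ∈ Finset.range n, ∑ s ∈ (Finset.univ.erase q).powersetCard j,
        F q * (∏ r ∈ s, -H r) * H q₀ ^ (n - 1 - j) := by
    intro q
    rw [Finset.prod_add, Finset.sum_powerset, Finset.mul_sum,
      Finset.card_erase_of_mem (Finset.mem_univ q), Finset.card_univ, ← hn,
      Nat.sub_add_cancel hn0]
    refine Finset.sum_congr rfl fun j _ => ?_
    rw [Finset.mul_sum]
    refine Finset.sum_congr rfl fun s hs => ?_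
    obtain ⟨hsub, hcard⟩ := Finset.mem_powersetCard.1 hs
    rw [Finset.prod_const, Finset.card_sdiff_of_subset hsub,
      Finset.card_erase_of_mem (Finset.mem_univ q), Finset.card_univ, ← hn, hcard, mul_assoc]
  have hzero : ∀ q, q ≠ q₀ → F q * ∏ r ∈ Finset.univ.erase q, (-H r + H q₀) = 0 := by
    intro q hq
    rw [Finset.prod_eq_zero (Finset.mem_erase.2 ⟨hq.symm, Finset.mem_univ q₀⟩) (by simp), mul_zero]
  calc ∑ j ∈ Finset.range n, cCoef F H j * H q₀ ^ (n - 1 - j)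
      = ∑ q, F q * ∏ r ∈ Finset.univ.erase q, (-H r + H q₀) := by
        simp only [hexp, cCoef, Finset.sum_mul]
        rw [Finset.sum_comm]
    _ = F q₀ * ∏ r ∈ Finset.univ.erase q₀, (-H r + H q₀) :=
        Finset.sum_eq_single q₀ (fun q _ hq => hzero q hq) (by simp)
    _ = _ := by simp only [neg_add_eq_sub]

end FLTAgent.MFIntegral
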