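import Mathlib
import Fermat.Agent.MFIntegral.Conj
import Fermat.Agent.MFIntegral.AutC

/-!
# Galois stability and bounded denominators

Galois stability of spaces of forms on `Γ` and bounded denominators of rational forms.
-/

set_option autoImplicit false

noncomputable section

namespace FLTAgent.MFIntegral

open UpperHalfPlane Filter Matrix.SpecialLinearGroup
open scoped Manifold Topology MatrixGroups ModularForm

/-- A separating form for `Γ`: rational with bounded denominators, stabiliser equal to `Γ`. -/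
structure IsSeparating (w : ℤ) (Γ : Subgroup SL(2, ℤ)) (h : ℍ → ℂ) : Prop where
  isMF : IsMF w Γ h
  bd : IsBD (qE h)
  stab : ∀ γ : SL(2, ℤ), h ∣[w] γ = h → γ ∈ Γ

variable {Γ : Subgroup SL(2, ℤ)} [Γ.FiniteIndex] {w K : ℤ} {h f : ℍ → ℂ}

/-- The data attached to a form `f`: monic equation and presentation as a quotient. -/
theorem exists_data (hh : IsSeparating w Γ h) (hf : IsMF K Γ f) :
    ∃ (n : ℕ) (a c d : ℕ → ℍ → ℂ), 0 < n ∧ (∀ i < n, IsMF (((n - i : ℕ) : ℤ) * K) ⊤ (a i)) ∧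
      (∀ j : ℕ, IsMF (K + j * w) ⊤ (c j)) ∧ (∀ j : ℕ, IsMF (0 + j * w) ⊤ (d j)) ∧
      (f ^ n + ∑ i ∈ Finset.range n, a i * f ^ i = 0) ∧
      (∑ j ∈ Finset.range n, d j * h ^ (n - 1 - j) ≠ 0) ∧
      (∑ j ∈ Finset.range n, d j * h ^ (n - 1 - j)) * f =
        ∑ j ∈ Finset.range n, c j * h ^ (n - 1 - j) ∧
      ((∀ γ : SL(2, ℤ), IsZeroAtImInfty (f ∣[K] γ)) → ∀ i < n, IsZeroAtImInfty (a i)) := by
  classical
  have : Fintype (SL(2, ℤ) ⧸ Γ) := Fintype.ofFinite _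
  set q₀ : SL(2, ℤ) ⧸ Γ := QuotientGroup.mk 1 with hq₀
  have hF := translate_eqFam hf
  have hH := translate_eqFam hh.isMF
  have hF0 : translate Γ K f q₀ = f := translate_one hf
  have hH0 : translate Γ w h q₀ = h := translate_one hh.isMF
  set n := Fintype.card (SL(2, ℤ) ⧸ Γ) with hn
  have hn0 : 0 < n := Fintype.card_pos_iff.2 ⟨q₀⟩
  have hD : ∑ j ∈ Finset.range n, cCoef (fun _ => 1) (translate Γ w h) j * h ^ (n - 1 - j) =
      ∏ r ∈ Finset.univ.erase q₀, (h - translate Γ w h r) := by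
    have := cCoef_interp (fun _ => 1) (translate Γ w h) q₀
    rwa [one_mul, hH0] at this
  refine ⟨n, fun i => eCoef (translate Γ K f) (n - i), cCoef (translate Γ K f) (translate Γ w h),
    cCoef (fun _ => 1) (translate Γ w h), hn0, fun i _ => eCoef_isMF hF _,
    fun j => cCoef_isMF hF hH j, fun j => cCoef_isMF isEqFam_one hH j, ?_, ?_, ?_, ?_⟩
  · ext τ
    have := eCoef_poly (translate Γ K f) q₀ τ
    rw [hF0] at this
    simpa [Finset.sum_apply] using this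
  · rw [hD]
    intro h0
    rw [UpperHalfPlane.prod_eq_zero_iff fun r _ => hh.isMF.holo.sub (hH.holo r)] at h0
    obtain ⟨r, hr, hr0⟩ := h0
    have hne := (Finset.mem_erase.1 hr).1
    induction r using QuotientGroup.induction_on with
    | _ g =>
      rw [sub_eq_zero, translate_mk hh.isMF] at hr0
      exact hne (QuotientGroup.eq.2 (by simpa using hh.stab _ hr0.symm))
  · rw [hD, mul_comm]
    have := cCoef_interp (translate Γ K f) (translate Γ w h) q₀
    rw [hF0, hH0] at this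
    exact this.symm
  · intro hz i hi
    exact eCoef_zeroAt (fun q => hz _) (by omega)

omit [Γ.FiniteIndex] in
theorem sum_isMF_and_qE (hT : ModularGroup.T ∈ Γ) (hh : IsMF w Γ h) {n : ℕ} {m : ℤ}
    {c : ℕ → ℍ → ℂ} (hc : ∀ j : ℕ, IsMF (m + j * w) ⊤ (c j)) :
    IsMF (m + (n - 1 : ℕ) * w) Γ (∑ j ∈ Finset.range n, c j * h ^ (n - 1 - j)) ∧
      qE (∑ j ∈ Finset.range n, c j * h ^ (n - 1 - j)) =
        ∑ j ∈ Finset.range n, qE (c j) * qE h ^ (n - 1 - j) := by
  refine ⟨isMF_finsetSum _ _ fun j hj => ?_, ?_⟩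
  · refine (((hc j).mono le_top).mul (hh.pow _)).cast ?_
    have := Finset.mem_range.1 hj
    rw [add_assoc, ← add_mul]
    congr 2
    exact_mod_cast (show j + (n - 1 - j) = n - 1 by omega)
  · have hhP := hh.mem_PB hT
    rw [qE_sum _ _ fun j _ => mul_mem (mem_PB_top (hc j)) (pow_mem hhP _)]
    exact Finset.sum_congr rfl fun j _ => by
      rw [qE_mul (mem_PB_top (hc j)) (pow_mem hhP _), qE_pow hhP]

theorem qE_poly {D R : ℍ → ℂ} {n : ℕ} {a : ℕ → ℍ → ℂ} (hD : D ∈ PB) (hR : R ∈ PB)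
    (ha : ∀ i < n, a i ∈ PB) :
    qE (R ^ n + ∑ i ∈ Finset.range n, a i * (R ^ i * D ^ (n - i))) =
      qE R ^ n + ∑ i ∈ Finset.range n, qE (a i) * (qE R ^ i * qE D ^ (n - i)) := by
  rw [qE_add (pow_mem hR _) (sum_mem fun i hi => mul_mem (ha i (Finset.mem_range.1 hi))
    (mul_mem (pow_mem hR _) (pow_mem hD _))), qE_pow hR,
    qE_sum _ _ fun i hi => mul_mem (ha i (Finset.mem_range.1 hi))
      (mul_mem (pow_mem hR _) (pow_mem hD _))]
  congr 1
  refine Finset.sum_congr rfl fun i hi => ?_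
  rw [qE_mul (ha i (Finset.mem_range.1 hi)) (mul_mem (pow_mem hR _) (pow_mem hD _)),
    qE_mul (pow_mem hR _) (pow_mem hD _), qE_pow hR, qE_pow hD]

theorem root_slash {n : ℕ} {a : ℕ → ℍ → ℂ} {g : ℍ → ℂ} {K : ℤ}
    (ha : ∀ i < n, IsMF (((n - i : ℕ) : ℤ) * K) ⊤ (a i))
    (hg : ∀ τ, g τ ^ n + ∑ i ∈ Finset.range n, a i τ * g τ ^ i = 0) (γ : SL(2, ℤ)) (τ : ℍ) :
    (g ∣[K] γ) τ ^ n + ∑ i ∈ Finset.range n, a i τ * (g ∣[K] γ) τ ^ i = 0 := by
  have h := hg (γ • τ)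
  set j := denom γ (τ : ℂ) with hj
  have hsum : ∑ i ∈ Finset.range n, a i τ * (g ∣[K] γ) τ ^ i =
      ∑ i ∈ Finset.range n, (j ^ (-K)) ^ n * (a i (γ • τ) * g (γ • τ) ^ i) := by
    refine Finset.sum_congr rfl fun i hi => ?_
    rw [Finset.mem_range] at hi
    have e := congrFun ((ha i hi).slash γ (Subgroup.mem_top γ)) τ
    rw [ModularForm.SL_slash_apply] at e
    rw [← e, ModularForm.SL_slash_apply, mul_pow]
    have hp : j ^ (-(((n - i : ℕ) : ℤ) * K)) * (j ^ (-K)) ^ i = (j ^ (-K)) ^ n := by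
      rw [neg_mul_eq_mul_neg, mul_comm (((n - i : ℕ) : ℤ)) (-K), zpow_mul, zpow_natCast, ← pow_add,
        Nat.sub_add_cancel hi.le]
    linear_combination (a i (γ • τ) * g (γ • τ) ^ i) * hp
  rw [hsum, ← Finset.mul_sum, ModularForm.SL_slash_apply, mul_pow]
  linear_combination (j ^ (-K)) ^ n * h

theorem isBoundedAtImInfty_root {n : ℕ} (hn : 0 < n) {a : ℕ → ℍ → ℂ}
    (ha : ∀ i < n, IsBoundedAtImInfty (a i)) {g : ℍ → ℂ}
    (hg : ∀ τ, g τ ^ n + ∑ i ∈ Finset.range n, a i τ * g τ ^ i = 0) : IsBoundedAtImInfty g := by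
  have h1 : IsBoundedAtImInfty (fun τ => (1 : ℝ) + ∑ i ∈ Finset.range n, ‖a i τ‖) :=
    (Filter.const_boundedAtFilter atImInfty (1 : ℝ)).add
      (Asymptotics.IsBigO.fun_sum fun i hi => (ha i (Finset.mem_range.1 hi)).norm_left)
  refine (Asymptotics.isBigO_of_le _ fun τ => ?_).trans h1
  rw [Real.norm_of_nonneg (by positivity)]
  exact norm_root_le hn (hg τ)

/-- **Galois stability**: automorphisms of `ℂ` act on forms of level `Γ`. -/
theorem exists_conj (hT : ModularGroup.T ∈ Γ) (hh : IsSeparating w Γ h) (hf : IsMF K Γ f)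
    (σ : ℂ ≃+* ℂ) :
    ∃ g, IsMF K Γ g ∧ qE g = PowerSeries.map (σ : ℂ →+* ℂ) (qE f) ∧
      (IsCF K Γ f → IsCF K Γ g) := by
  obtain ⟨n, a, c, d, hn, ha, hc, hd, hroot, hD0, hDf, hzero⟩ := exists_data hh hf
  choose a' ha' hqa using fun i (hi : i < n) => levelOne_conj σ (ha i hi)
  choose c' hc' hqc using fun j => levelOne_conj σ (hc j)
  choose d' hd' hqd using fun j => levelOne_conj σ (hd j)
  let A : ℕ → ℍ → ℂ := fun i => if hi : i < n then a' i hi else 0
  have hA : ∀ i < n, IsMF (((n - i : ℕ) : ℤ) * K) ⊤ (A i) := fun i hi => by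
    simp only [A, dif_pos hi]; exact ha' i hi
  have hqA : ∀ i < n, qE (A i) = PowerSeries.map (σ : ℂ →+* ℂ) (qE (a i)) := fun i hi => by
    simp only [A, dif_pos hi]; exact hqa i hi
  set D := ∑ j ∈ Finset.range n, d j * h ^ (n - 1 - j) with hDdef
  set R := ∑ j ∈ Finset.range n, c j * h ^ (n - 1 - j) with hRdef
  set D' := ∑ j ∈ Finset.range n, d' j * h ^ (n - 1 - j) with hD'def
  set R' := ∑ j ∈ Finset.range n, c' j * h ^ (n - 1 - j) with hR'def
  obtain ⟨hDm, hDq⟩ := sum_isMF_and_qE (n := n) hT hh.isMF hd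
  obtain ⟨hRm, hRq⟩ := sum_isMF_and_qE (n := n) hT hh.isMF hc
  obtain ⟨hD'm, hD'q⟩ := sum_isMF_and_qE (n := n) hT hh.isMF hd'
  obtain ⟨hR'm, hR'q⟩ := sum_isMF_and_qE (n := n) hT hh.isMF hc'
  rw [← hDdef] at hDm hDq
  rw [← hRdef] at hRm hRq
  rw [← hD'def] at hD'm hD'q
  rw [← hR'def] at hR'm hR'q
  have hhrat : PowerSeries.map (σ : ℂ →+* ℂ) (qE h) = qE h := by
    ext m
    obtain ⟨r, hr⟩ := hh.bd.exists_rat m
    simp [hr]
  have eD : qE D' = PowerSeries.map (σ : ℂ →+* ℂ) (qE D) := by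
    simp only [hDq, hD'q, map_sum, map_mul, map_pow, hhrat, hqd]
  have eR : qE R' = PowerSeries.map (σ : ℂ →+* ℂ) (qE R) := by
    simp only [hRq, hR'q, map_sum, map_mul, map_pow, hhrat, hqc]
  have hDP := hDm.mem_PB hT
  have hRP := hRm.mem_PB hT
  have hD'P := hD'm.mem_PB hT
  have hR'P := hR'm.mem_PB hT
  have hfP := hf.mem_PB hT
  have haP : ∀ i < n, a i ∈ PB := fun i hi => mem_PB_top (ha i hi)
  have hAP : ∀ i < n, A i ∈ PB := fun i hi => mem_PB_top (hA i hi)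
  have hD'0 : D' ≠ 0 := by
    intro h0
    rw [h0, qE_zero] at eD
    refine hD0 ((qE_eq_zero_iff hDP).1 ?_)
    exact PowerSeries.map_injective (σ : ℂ →+* ℂ) σ.injective (by rw [← eD, map_zero])
  have hpoly : R ^ n + ∑ i ∈ Finset.range n, a i * (R ^ i * D ^ (n - i)) = 0 := by
    rw [← hDf, show (0 : ℍ → ℂ) = D ^ n * (f ^ n + ∑ i ∈ Finset.range n, a i * f ^ i) by
      rw [hroot, mul_zero], mul_add, Finset.mul_sum, mul_pow]
    congr 1
    refine Finset.sum_congr rfl fun i hi => ?_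
    rw [Finset.mem_range] at hi
    have hp : D ^ i * D ^ (n - i) = D ^ n := by rw [← pow_add, Nat.add_sub_cancel' hi.le]
    rw [mul_pow, ← hp]
    ring
  have hpoly' : R' ^ n + ∑ i ∈ Finset.range n, A i * (R' ^ i * D' ^ (n - i)) = 0 := by
    refine (qE_eq_zero_iff (add_mem (pow_mem hR'P _) (sum_mem fun i hi =>
      mul_mem (hAP i (Finset.mem_range.1 hi)) (mul_mem (pow_mem hR'P _) (pow_mem hD'P _))))).1 ?_
    have e := congrArg (fun u => PowerSeries.map (σ : ℂ →+* ℂ) (qE u)) hpoly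
    simp only [qE_poly hDP hRP haP, qE_zero, map_zero, map_add, map_pow, map_sum, map_mul,
      ← eR, ← eD] at e
    rw [qE_poly hD'P hR'P hAP, ← e]
    congr 1
    exact Finset.sum_congr rfl fun i hi => by rw [hqA i (Finset.mem_range.1 hi)]
  obtain ⟨g, hgh, hDg, hgroot⟩ := exists_quotient hR'm.holo hD'm.holo hD'0 hn
    (fun i hi => (hA i hi).holo) (fun τ => by
      simpa [Finset.sum_apply] using congrFun hpoly' τ)
  have hinv : ∀ γ ∈ Γ, g ∣[K] γ = g := by
    intro γ hγ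
    refine mdiff_mul_cancel hD'm.holo hD'0 (mdiff_slash hgh K γ) hgh ?_
    have h1 := ModularForm.mul_slash_SL2 (0 + (n - 1 : ℕ) * w) K γ D' g
    rw [hD'm.slash γ hγ, hDg] at h1
    rw [hDg, ← h1, show 0 + ((n - 1 : ℕ) : ℤ) * w + K = K + (n - 1 : ℕ) * w by ring,
      hR'm.slash γ hγ]
  have hgroot' := fun γ => root_slash hA hgroot γ
  have hg : IsMF K Γ g := ⟨hinv, hgh, fun γ =>
    isBoundedAtImInfty_root hn (fun i hi => (hA i hi).bdd_infty) (hgroot' γ)⟩
  have hgP := hg.mem_PB hT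
  refine ⟨g, hg, ?_, fun hcf => ⟨hg, fun γ => ?_⟩⟩
  · have h1 : qE D' * qE g = qE R' := by rw [← qE_mul hD'P hgP, hDg]
    have h2 : qE D * qE f = qE R := by rw [← qE_mul hDP hfP, hDf]
    rw [eR, ← h2, map_mul, ← eD] at h1
    exact mul_left_cancel₀ (fun h0 => hD'0 ((qE_eq_zero_iff hD'P).1 h0)) h1
  · refine tendsto_root_zero (fun i hi => ?_) (hgroot' γ)
    refine isZeroAtImInfty_of_coeff_zero (hAP i hi) ?_
    have hz := hzero hcf.2 i hi
    have h0 : PowerSeries.coeff 0 (qE (a i)) = 0 := by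
      rw [qE, qExpansion_coeff_zero one_pos (PB.analyticAt (haP i hi))
        (by simpa using (haP i hi).1)]
      exact hz.valueAtInfty_eq_zero
    rw [hqA i hi, PowerSeries.coeff_map, h0, map_zero]

/-- Forms with rational coefficients have bounded denominators. -/
theorem isBD_of_rational (hT : ModularGroup.T ∈ Γ) (hh : IsSeparating w Γ h) (hf : IsMF K Γ f)
    (hrat : ∀ m, ∃ r : ℚ, PowerSeries.coeff m (qE f) = r) : IsBD (qE f) := by
  obtain ⟨n, a, c, d, hn, ha, hc, hd, hroot, hD0, hDf, -⟩ := exists_data hh hf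
  obtain ⟨hDm, hDq⟩ := sum_isMF_and_qE (n := n) hT hh.isMF hd
  obtain ⟨hRm, hRq⟩ := sum_isMF_and_qE (n := n) hT hh.isMF hc
  have hDP := hDm.mem_PB hT
  have hfP := hf.mem_PB hT
  have hhs := hh.bd.mem_bdSpan
  refine isBD_of_root (D := qE (∑ j ∈ Finset.range n, d j * h ^ (n - 1 - j)))
    (R := qE (∑ j ∈ Finset.range n, c j * h ^ (n - 1 - j))) (a := fun i => qE (a i))
    ?_ (fun h0 => hD0 ((qE_eq_zero_iff hDP).1 h0)) ?_ ?_ hrat hn
    (fun i hi => qE_levelOne_mem_bdSpan (ha i hi)) ?_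
  · rw [hDq]
    exact sum_mem fun j _ => bdSpan_mul (qE_levelOne_mem_bdSpan (hd j)) (bdSpan_pow hhs _)
  · rw [hRq]
    exact sum_mem fun j _ => bdSpan_mul (qE_levelOne_mem_bdSpan (hc j)) (bdSpan_pow hhs _)
  · rw [← qE_mul hDP hfP, hDf]
  · have e := congrArg qE hroot
    rw [qE_zero, qE_add (pow_mem hfP _) (sum_mem fun i hi =>
        mul_mem (mem_PB_top (ha i (Finset.mem_range.1 hi))) (pow_mem hfP _)), qE_pow hfP,
      qE_sum _ _ fun i hi => mul_mem (mem_PB_top (ha i (Finset.mem_range.1 hi))) (pow_mem hfP _)]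
      at e
    rw [← e]
    congr 1
    exact Finset.sum_congr rfl fun i hi => by
      rw [qE_mul (mem_PB_top (ha i (Finset.mem_range.1 hi))) (pow_mem hfP _), qE_pow hfP]

end FLTAgent.MFIntegral
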