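import Mathlib
import Fermat.Prelude.Def_ModularForm_HeckeOperator
import Fermat.Agent.MFIntegral.Descent

/-!
# A separating form for `Γ₀(N)`

The form `Δ(Nτ)` is separating for `Γ₀(N)`: `isSeparating_sepForm`.
-/

set_option autoImplicit false

noncomputable section

namespace FLTAgent.MFIntegral

open UpperHalfPlane Filter Matrix.SpecialLinearGroup
open scoped Manifold Topology MatrixGroups ModularForm Real

variable (N : ℕ) [NeZero N]

/-- `N ^ 11 Δ(Nτ)`. -/
def sepForm : ℍ → ℂ :=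
  ModularForm.discriminant ∣[(12 : ℤ)] ModularForm.heckeDiagMatrix N

theorem discriminant_isMF : IsMF 12 ⊤ ModularForm.discriminant :=
  discriminant_mem_goodGen.1

theorem sepForm_slash_decomp (γ : SL(2, ℤ)) :
    ∃ (δ : SL(2, ℤ)) (U : GL (Fin 2) ℝ) (g u : ℝ),
      (U : Matrix (Fin 2) (Fin 2) ℝ) = !![g, u; 0, (N : ℝ) / g] ∧ 0 < g ∧
      ModularForm.heckeDiagMatrix N * mapGL ℝ γ = mapGL ℝ δ * U ∧
      ((N : ℝ) = g → (N : ℤ) ∣ γ 1 0) ∧ (U.det : ℝ) = N := by
  have hN : (N : ℤ) ≠ 0 := by exact_mod_cast NeZero.ne N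
  have hdetγ := γ.det_coe
  rw [Matrix.det_fin_two] at hdetγ
  set a := γ 0 0 with ha
  set c := γ 1 0 with hc
  set gi : ℤ := (Int.gcd (a * N) c : ℤ) with hgi
  have hgpos : 0 < gi := by
    rw [hgi]
    have : Int.gcd (a * N) c ≠ 0 := by
      intro h0
      obtain ⟨h1, h2⟩ := Int.gcd_eq_zero_iff.1 h0
      rcases mul_eq_zero.1 h1 with h3 | h3
      · rw [h3, h2] at hdetγ; simp at hdetγ
      · exact hN h3
    omega
  obtain ⟨α, hα⟩ : gi ∣ a * N := Int.gcd_dvd_left _ _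
  obtain ⟨β, hβ⟩ : gi ∣ c := Int.gcd_dvd_right _ _
  have hbez := Int.gcd_eq_gcd_ab (a * N) c
  set x := Int.gcdA (a * N) c
  set y := Int.gcdB (a * N) c
  have hαβ : α * x + β * y = 1 := by
    have : gi * (α * x + β * y) = gi * 1 := by
      rw [mul_one]
      conv_rhs => rw [hgi, hbez]
      rw [hα, hβ]
      ring
    exact mul_left_cancel₀ hgpos.ne' this
  let δ : SL(2, ℤ) := ⟨!![α, -y; β, x], by rw [Matrix.det_fin_two_of]; linarith⟩
  have hδi : ((δ⁻¹ : SL(2, ℤ)) : Matrix (Fin 2) (Fin 2) ℤ) = !![x, y; -β, α] := by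
    rw [Matrix.SpecialLinearGroup.coe_inv, Matrix.adjugate_fin_two]
    simp [δ]
  let U : GL (Fin 2) ℝ := (mapGL ℝ δ)⁻¹ * (ModularForm.heckeDiagMatrix N * mapGL ℝ γ)
  have hgR : (gi : ℝ) ≠ 0 := by exact_mod_cast hgpos.ne'
  have hUdet : (U.det : ℝ) = N := by
    simp only [U, map_mul, ← map_inv, Matrix.SpecialLinearGroup.det_mapGL,
      one_mul, mul_one, ModularForm.det_heckeDiagMatrix (NeZero.ne N)]
  have hUval : (U : Matrix (Fin 2) (Fin 2) ℝ) =
      (!![x, y; -β, α] : Matrix (Fin 2) (Fin 2) ℤ).map (Int.cast) *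
        (!![(N : ℝ), 0; 0, 1] * (γ : Matrix (Fin 2) (Fin 2) ℤ).map (Int.cast)) := by
    simp only [U, ← map_inv, Units.val_mul, ModularForm.val_heckeDiagMatrix (NeZero.ne N), ← hδi]
    rfl
  have hU00 : (U : Matrix (Fin 2) (Fin 2) ℝ) 0 0 = gi := by
    have : x * ((N : ℤ) * a) + y * c = gi := by rw [hgi, hbez]; ring
    rw [hUval]
    simp only [Matrix.mul_apply, Fin.sum_univ_two, Matrix.map_apply]
    simp [← ha, ← hc]
    exact_mod_cast this
  have hU10 : (U : Matrix (Fin 2) (Fin 2) ℝ) 1 0 = 0 := by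
    have : -β * ((N : ℤ) * a) + α * c = 0 := by rw [mul_comm (N : ℤ), hα, hβ]; ring
    rw [hUval]
    simp only [Matrix.mul_apply, Fin.sum_univ_two, Matrix.map_apply]
    simp [← ha, ← hc]
    exact_mod_cast (by linarith : -(β * ((N : ℤ) * a)) + α * c = 0)
  refine ⟨δ, U, gi, (U : Matrix (Fin 2) (Fin 2) ℝ) 0 1, ?_, by exact_mod_cast hgpos, ?_, ?_, hUdet⟩
  · have h11 : (U : Matrix (Fin 2) (Fin 2) ℝ) 1 1 = N / gi := by
      have := hUdet
      rw [Matrix.GeneralLinearGroup.val_det_apply, Matrix.det_fin_two, hU00, hU10] at this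
      field_simp
      linarith
    ext i j
    fin_cases i <;> fin_cases j <;> simp [hU00, hU10, h11]
  · simp [U]
  · intro h
    have h' : (N : ℤ) = gi := by exact_mod_cast h
    rw [hβ, h']
    exact dvd_mul_right _ _

omit [NeZero N] in
theorem sepForm_slash (γ : SL(2, ℤ)) {δ : SL(2, ℤ)} {U : GL (Fin 2) ℝ}
    (h : ModularForm.heckeDiagMatrix N * mapGL ℝ γ = mapGL ℝ δ * U) :
    sepForm N ∣[(12 : ℤ)] γ = ModularForm.discriminant ∣[(12 : ℤ)] U := by
  rw [sepForm, ModularForm.SL_slash, ← SlashAction.slash_mul]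
  change ModularForm.discriminant ∣[(12 : ℤ)] (ModularForm.heckeDiagMatrix N * mapGL ℝ γ) = _
  rw [h, SlashAction.slash_mul]
  congr 1
  exact discriminant_isMF.slash δ (Subgroup.mem_top δ)

theorem tendsto_discriminant_div :
    Tendsto (fun z : ℍ => ‖ModularForm.discriminant z‖ / Real.exp (-2 * π * z.im)) atImInfty
      (𝓝 1) := by
  have h := ModularForm.tendsto_atImInfty_tprod_one_sub_eta_q_pow.norm
  rw [norm_one] at h
  refine h.congr fun z => ?_
  rw [ModularForm.discriminant_eq_q_prod, norm_mul,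
    show ‖Function.Periodic.qParam 1 (z : ℂ)‖ = Real.exp (-2 * π * z.im) by
      simp [Function.Periodic.qParam, Complex.norm_exp]]
  rw [mul_div_cancel_left₀ _ (Real.exp_pos _).ne']

theorem im_smul_upperTriangular {U : GL (Fin 2) ℝ} {g u v : ℝ}
    (hU : (U : Matrix (Fin 2) (Fin 2) ℝ) = !![g, u; 0, v]) (hg : 0 < g) (hv : 0 < v) (τ : ℍ) :
    (U • τ).im = g / v * τ.im ∧ denom U τ = v ∧ (U.det : ℝ) = g * v := by
  have hdet : (U.det : ℝ) = g * v := by
    rw [Matrix.GeneralLinearGroup.val_det_apply, hU, Matrix.det_fin_two_of]; ring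
  have hd : denom U τ = v := by simp [denom, hU]
  refine ⟨?_, hd, hdet⟩
  rw [im_smul_eq_div_normSq, hdet, abs_of_pos (mul_pos hg hv), hd, Complex.normSq_ofReal]
  field_simp

theorem tendsto_upperTriangular {U : GL (Fin 2) ℝ} {g u v : ℝ}
    (hU : (U : Matrix (Fin 2) (Fin 2) ℝ) = !![g, u; 0, v]) (hg : 0 < g) (hv : 0 < v) :
    Tendsto (fun τ : ℍ => ‖(ModularForm.discriminant ∣[(12 : ℤ)] U) τ‖ /
      Real.exp (-2 * π * (g / v * τ.im))) atImInfty (𝓝 ((g * v) ^ (11 : ℤ) * v ^ (-12 : ℤ))) := by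
  have h10 : U 1 0 = 0 := by simp [hU]
  have h := (tendsto_discriminant_div.comp (tendsto_smul_atImInfty h10)).const_mul
    ((g * v) ^ (11 : ℤ) * v ^ (-12 : ℤ))
  rw [mul_one] at h
  refine h.congr fun τ => ?_
  obtain ⟨him, hd, hdet⟩ := im_smul_upperTriangular hU hg hv τ
  rw [Function.comp_apply, him, ModularForm.slash_apply, norm_mul, norm_mul, norm_zpow, norm_zpow,
    hd, hdet]
  have hσ : UpperHalfPlane.σ U = .refl ℝ ℂ := by
    rw [UpperHalfPlane.σ, if_pos (by rw [hdet]; positivity)]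
  rw [hσ]
  simp only [ContinuousAlgEquiv.refl_apply, Complex.norm_real, Real.norm_of_nonneg hv.le,
    Real.norm_of_nonneg (mul_pos hg hv).le, abs_of_pos (mul_pos hg hv)]
  rw [show (12 : ℤ) - 1 = 11 by norm_num]
  ring

theorem sepForm_isMF : IsMF 12 (CongruenceSubgroup.Gamma0 N) (sepForm N) := by
  have hgen : ∀ γ : SL(2, ℤ), ∃ U : GL (Fin 2) ℝ, U 1 0 = 0 ∧
      sepForm N ∣[(12 : ℤ)] γ = ModularForm.discriminant ∣[(12 : ℤ)] U := by
    intro γ
    obtain ⟨δ, U, g, u, hU, -, hdec, -, -⟩ := sepForm_slash_decomp N γ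
    exact ⟨U, by simp [hU], sepForm_slash N γ hdec⟩
  refine ⟨fun γ hγ => ?_, ?_, fun γ => ?_⟩
  · rw [CongruenceSubgroup.Gamma0_mem, ZMod.intCast_zmod_eq_zero_iff_dvd] at hγ
    obtain ⟨c', hc'⟩ := hγ
    have hdet := γ.det_coe
    rw [Matrix.det_fin_two, hc'] at hdet
    let δ : SL(2, ℤ) := ⟨!![γ 0 0, (N : ℤ) * γ 0 1; c', γ 1 1], by
      rw [Matrix.det_fin_two_of]; linarith⟩
    refine (sepForm_slash N γ (δ := δ) (U := ModularForm.heckeDiagMatrix N) ?_).trans rfl
    have hmap : ∀ g : SL(2, ℤ), ((mapGL ℝ g : GL (Fin 2) ℝ) : Matrix (Fin 2) (Fin 2) ℝ) =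
        (g : Matrix (Fin 2) (Fin 2) ℤ).map Int.cast := fun g => rfl
    have hcR : ((γ 1 0 : ℤ) : ℝ) = (N : ℝ) * (c' : ℝ) := by rw [hc']; push_cast; ring
    apply Units.ext
    simp only [Units.val_mul, ModularForm.val_heckeDiagMatrix (NeZero.ne N), hmap]
    ext i j
    fin_cases i <;> fin_cases j <;>
      simp [δ, hcR, Matrix.mul_apply, Fin.sum_univ_two, mul_comm]
  · exact discriminant_isMF.holo.slash 12 _
  · obtain ⟨U, hU0, hU⟩ := hgen γ
    rw [hU]
    exact IsBoundedAtImInfty.slash (g := U) 12 hU0 discriminant_isMF.bdd_infty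

theorem sepForm_stab (γ : SL(2, ℤ)) (h : sepForm N ∣[(12 : ℤ)] γ = sepForm N) :
    γ ∈ CongruenceSubgroup.Gamma0 N := by
  obtain ⟨δ, U, g, u, hU, hg, hdec, hdvd, -⟩ := sepForm_slash_decomp N γ
  rw [CongruenceSubgroup.Gamma0_mem, ZMod.intCast_zmod_eq_zero_iff_dvd]
  apply hdvd
  have hN : (0 : ℝ) < N := by exact_mod_cast Nat.pos_of_ne_zero (NeZero.ne N)
  rw [sepForm_slash N γ hdec] at h
  have hA : (ModularForm.heckeDiagMatrix N : Matrix (Fin 2) (Fin 2) ℝ) = !![(N : ℝ), 0; 0, 1] :=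
    ModularForm.val_heckeDiagMatrix (NeZero.ne N)
  have t1 := tendsto_upperTriangular hU hg (div_pos hN hg)
  have t2 := tendsto_upperTriangular hA hN one_pos
  rw [h] at t1
  have t3 := t1.div t2 (by positivity)
  set r := g / ((N : ℝ) / g) with hr
  set L := (g * ((N : ℝ) / g)) ^ (11 : ℤ) * ((N : ℝ) / g) ^ (-12 : ℤ) /
    (((N : ℝ) * 1) ^ (11 : ℤ) * 1 ^ (-12 : ℤ)) with hL
  have hne : ∀ τ, sepForm N τ ≠ 0 := fun τ => by
    rw [sepForm, ModularForm.slash_heckeDiagMatrix_apply _ (NeZero.ne N)]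
    exact mul_ne_zero (zpow_ne_zero _ (by exact_mod_cast NeZero.ne N))
      (ModularForm.discriminant_ne_zero _)
  have t4 : Tendsto (fun τ : ℍ => Real.exp (2 * π * (r - N) * τ.im)) atImInfty (𝓝 L) := by
    refine t3.congr fun τ => ?_
    simp only [Pi.div_apply]
    change ‖sepForm N τ‖ / _ / (‖sepForm N τ‖ / _) = _
    have hn0 : ‖sepForm N τ‖ ≠ 0 := norm_ne_zero_iff.2 (hne τ)
    rw [div_div_div_eq, mul_comm (Real.exp (-2 * π * (r * τ.im))) _,
      mul_div_mul_left _ _ hn0, ← Real.exp_sub]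
    congr 1
    ring
  have hLpos : 0 < L := by rw [hL]; positivity
  have him : Tendsto (fun τ : ℍ => τ.im) atImInfty atTop := tendsto_comap
  have : NeBot (atImInfty : Filter ℍ) := by
    refine comap_neBot fun t ht => ?_
    obtain ⟨a, ha⟩ := mem_atTop_sets.1 ht
    exact ⟨⟨⟨0, max a 1⟩, by simp⟩, ha _ (le_max_left _ _)⟩
  have hrN : r = N := by
    rcases lt_trichotomy (r - N) 0 with h' | h' | h'
    · have t5 := Real.tendsto_exp_atBot.comp
        (him.const_mul_atTop_of_neg (show 2 * π * (r - N) < 0 from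
          mul_neg_of_pos_of_neg (by positivity) h'))
      exact absurd (tendsto_nhds_unique t4 t5) hLpos.ne'
    · linarith
    · have t5 := Real.tendsto_exp_atTop.comp
        (him.const_mul_atTop (show 0 < 2 * π * (r - N) by positivity))
      exact absurd t5 (not_tendsto_atTop_of_tendsto_nhds t4)
  rw [hr] at hrN
  field_simp at hrN
  nlinarith

theorem sepForm_isBD : IsBD (qE (sepForm N)) := by
  have hΔ := mem_PB_top discriminant_isMF
  obtain ⟨c, hc, hcint⟩ := discriminant_mem_goodGen.2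
  refine ⟨c, hc, mem_intSeries_iff.2 fun n => ?_⟩
  let e : ℕ → ℂ := fun n => if N ∣ n then
    (N : ℂ) ^ (11 : ℕ) * PowerSeries.coeff (n / N) (qE ModularForm.discriminant) else 0
  have hcoeff : e n = PowerSeries.coeff n (qE (sepForm N)) := by
    suffices hsum : ∀ τ : ℍ,
        HasSum (fun m => e m • Function.Periodic.qParam (1 : ℝ) (τ : ℂ) ^ m) (sepForm N τ) by
      exact ModularFormClass.qExpansion_coeff_unique (f := (sepForm_isMF N).toMF) one_pos
        (by simp) hsum n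
    intro τ
    rw [sepForm, ModularForm.slash_heckeDiagMatrix_apply _ (NeZero.ne N)]
    have hs := (UpperHalfPlane.hasSum_qExpansion one_pos (by simpa using hΔ.1) hΔ.2.1 hΔ.2.2
      (ModularForm.heckeDiagMatrix N • τ)).const_smul ((N : ℂ) ^ ((12 : ℤ) - 1))
    rw [smul_eq_mul] at hs
    have hinj : Function.Injective (fun m : ℕ => N * m) := fun a b hab =>
      Nat.eq_of_mul_eq_mul_left (Nat.pos_of_ne_zero (NeZero.ne N)) hab
    refine (hinj.hasSum_iff ?_).1 ?_
    · intro m hm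
      have : ¬ N ∣ m := fun ⟨q, hq⟩ => hm ⟨q, hq.symm⟩
      simp [e, this]
    · convert hs using 1
      ext m
      simp only [Function.comp_apply, e, dvd_mul_right, if_true, smul_eq_mul,
        Nat.mul_div_cancel_left _ (Nat.pos_of_ne_zero (NeZero.ne N))]
      rw [ModularForm.coe_heckeDiagMatrix_smul (NeZero.ne N), pow_mul]
      have hq : Function.Periodic.qParam (1 : ℝ) (τ : ℂ) ^ N =
          Function.Periodic.qParam (1 : ℝ) ((N : ℂ) * (τ : ℂ)) := by
        simp only [Function.Periodic.qParam, ← Complex.exp_nat_mul]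
        congr 1
        ring
      rw [hq]
      norm_num [qE]
      ring
  rw [PowerSeries.coeff_C_mul, ← hcoeff]
  simp only [e]
  split_ifs
  · obtain ⟨z, hz⟩ := mem_intSeries_iff.1 hcint (n / N)
    rw [PowerSeries.coeff_C_mul] at hz
    refine ⟨(N : ℤ) ^ 11 * z, ?_⟩
    push_cast
    linear_combination (N : ℂ) ^ 11 * hz
  · exact ⟨0, by simp⟩

theorem isSeparating_sepForm :
    IsSeparating 12 (CongruenceSubgroup.Gamma0 N) (sepForm N) :=
  ⟨sepForm_isMF N, sepForm_isBD N, sepForm_stab N⟩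

end FLTAgent.MFIntegral
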