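import Mathlib
import Fermat.Prelude.Def_CuspForm_IntegralStructure
import Fermat.Prelude.Def_CuspForm_IntegralLattice
import Fermat.Prelude.Def_CuspForm_HeckeAlgebra
import Fermat.Prelude.Thm_ModularForm_sturm_bound_Gamma0
import Fermat.Prelude.Thm_CuspForm_intLattice_fg
import Fermat.Prelude.Thm_CuspForm_mem_intLattice_of_mem_heckeAlgebra
import Fermat.Agent.MFIntegral.Gamma0

/-!
# Integral structures on modular forms

Rational and integral structures on forms of level `Γ₀(N)`; finiteness of Hecke algebras.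

Main exports: `cuspForm_conj`, `cuspForm_span_rational`,
`exists_zsmul_mem_intLattice`, `hasIntegralStructure`,
`hasIntegralBasis`, `moduleFinite_heckeAlgebra`.
-/

set_option autoImplicit false

noncomputable section

namespace FLTAgent.MFIntegral

open UpperHalfPlane CongruenceSubgroup
open scoped MatrixGroups ModularForm

variable {N : ℕ} [NeZero N] {k : ℤ}

omit [NeZero N] in
theorem T_mem_Gamma0 : ModularGroup.T ∈ Gamma0 N := by
  simp [Gamma0_mem, ModularGroup.coe_T]

theorem qCoeff_eq (f : ℍ → ℂ) (n : ℕ) :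
    ModularFormClass.qCoeff f n = PowerSeries.coeff n (qE f) := rfl

/-- `Aut ℂ` acts on `S_k(Γ₀(N))` through `q`-expansion coefficients. -/
theorem cuspForm_conj (σ : ℂ ≃+* ℂ) (f : CuspForm (Gamma0 N) k) :
    ∃ g : CuspForm (Gamma0 N) k, ∀ n, ModularFormClass.qCoeff g n =
      σ (ModularFormClass.qCoeff f n) := by
  have hf := isCF_of_cuspForm f
  obtain ⟨g, -, hq, hcf⟩ := exists_conj T_mem_Gamma0 (isSeparating_sepForm N) hf.1 σ
  refine ⟨(hcf hf).toCF, fun n => ?_⟩
  rw [qCoeff_eq, qCoeff_eq, IsCF.coe_toCF, hq, PowerSeries.coeff_map]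
  rfl

/-- Coefficients, as a linear map on cusp forms. -/
def qCoeffCF : CuspForm (Gamma0 N) k →ₗ[ℂ] (ℕ → ℂ) where
  toFun f n := ModularFormClass.qCoeff f n
  map_add' f g := by
    funext n
    show PowerSeries.coeff n (qE (⇑f + ⇑g)) = _
    rw [qE_add ((isCF_of_cuspForm f).1.mem_PB T_mem_Gamma0)
      ((isCF_of_cuspForm g).1.mem_PB T_mem_Gamma0), map_add]
    rfl
  map_smul' c f := by
    funext n
    show PowerSeries.coeff n (qE (c • ⇑f)) = _
    rw [qE_smul ((isCF_of_cuspForm f).1.mem_PB T_mem_Gamma0), PowerSeries.coeff_smul]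
    rfl

@[simp] theorem qCoeffCF_apply (f : CuspForm (Gamma0 N) k) (n : ℕ) :
    qCoeffCF f n = ModularFormClass.qCoeff f n := rfl

/-- `S_k(Γ₀(N))` is spanned by forms with rational coefficients. -/
theorem cuspForm_span_rational :
    Submodule.span ℂ {f : CuspForm (Gamma0 N) k |
      ∀ n, ∃ r : ℚ, ModularFormClass.qCoeff f n = r} = ⊤ := by
  refine span_rational_eq_top qCoeffCF ((k * (Gamma0 N).index).toNat / 12 + 1) (fun f hf => ?_)
    (fun σ f => cuspForm_conj σ f)
  have h := ModularForm.sturm_bound_Gamma0 N ((isCF_of_cuspForm f).1.toMF)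
    fun n hn => hf n (Nat.lt_succ_of_le hn)
  have h' : (⇑f : ℍ → ℂ) = 0 := by
    simpa using congrArg (fun F : ModularForm (Gamma0 N) k => (F : ℍ → ℂ)) h
  exact DFunLike.coe_injective h'

/-- A form with rational coefficients has bounded denominators. -/
theorem exists_int_mul_qCoeff (f : ModularForm (Gamma0 N) k)
    (hf : ∀ n, ∃ r : ℚ, ModularFormClass.qCoeff f n = r) :
    ∃ c : ℤ, c ≠ 0 ∧ ∀ n, ∃ m : ℤ, (c : ℂ) * ModularFormClass.qCoeff f n = m := by
  obtain ⟨c, hc, hint⟩ :=
    isBD_of_rational T_mem_Gamma0 (isSeparating_sepForm N) (isMF_of_modularForm f) hf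
  refine ⟨c, hc, fun n => ?_⟩
  obtain ⟨m, hm⟩ := mem_intSeries_iff.1 hint n
  exact ⟨m, by rw [qCoeff_eq, ← PowerSeries.coeff_C_mul]; exact hm⟩

/-- A rational cusp form has a nonzero multiple in the integral lattice. -/
theorem exists_zsmul_mem_intLattice (f : CuspForm (Gamma0 N) k)
    (hf : ∀ n, ∃ r : ℚ, ModularFormClass.qCoeff f n = r) :
    ∃ c : ℤ, c ≠ 0 ∧ c • f ∈ CuspForm.intLattice N k := by
  obtain ⟨c, hc, hint⟩ := exists_int_mul_qCoeff (isCF_of_cuspForm f).1.toMF
    (by simpa using hf)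
  refine ⟨c, hc, Submodule.subset_span fun n => ?_⟩
  obtain ⟨m, hm⟩ := hint n
  refine ⟨m, ?_⟩
  rw [← hm, ← qCoeffCF_apply (c • f), ← Int.cast_smul_eq_zsmul ℂ c f, map_smul]
  simp

/-- The cusp forms of level `N` and any weight have an integral structure. -/
theorem hasIntegralStructure (N : ℕ) [NeZero N] (k : ℤ) : CuspForm.HasIntegralStructure N k := by
  rw [CuspForm.HasIntegralStructure, eq_top_iff, ← cuspForm_span_rational, Submodule.span_le]
  intro f hf
  obtain ⟨c, hc, hmem⟩ := exists_zsmul_mem_intLattice f hf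
  have hc' : (c : ℂ) ≠ 0 := Int.cast_ne_zero.2 hc
  have : f = (c : ℂ)⁻¹ • (c • f) := by
    rw [← Int.cast_smul_eq_zsmul ℂ, inv_smul_smul₀ hc']
  rw [SetLike.mem_coe, this]
  exact Submodule.smul_mem _ _ (Submodule.subset_span hmem)

/-- The weight two cusp forms have an integral basis. -/
theorem hasIntegralBasis (N : ℕ) [NeZero N] : CuspForm.HasIntegralBasis N := by
  have h := hasIntegralStructure N 2
  rw [CuspForm.HasIntegralStructure, CuspForm.intLattice, Submodule.span_span_of_tower] at h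
  rw [CuspForm.HasIntegralBasis, ← h]
  congr 1
  ext f
  simp only [CuspForm.qIntegralSet, Set.mem_ofPred_eq, Subring.mem_bot]
  exact forall_congr' fun n => exists_congr fun m => eq_comm

theorem cuspForm_eq_zero_of_nonpos (hk : k ≤ 0) (f : CuspForm (Gamma0 N) k) : f = 0 := by
  apply DFunLike.coe_injective
  have hf := isCF_of_cuspForm f
  rcases lt_or_eq_of_le hk with hk | rfl
  · simpa using congrArg (fun F : ModularForm (Gamma0 N) k => (F : ℍ → ℂ))
      (ModularForm.isZero_of_neg_weight hk hf.1.toMF)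
  · obtain ⟨c, hc⟩ := ModularForm.eq_const_of_weight_zero hf.1.toMF
    rw [IsMF.coe_toMF] at hc
    have h0 := hf.coeff_zero T_mem_Gamma0
    have hconst : (⇑f : ℍ → ℂ) = c • (1 : ℍ → ℂ) := by rw [hc]; ext z; simp
    rw [hconst, qE_smul (one_mem PB), qE_one] at h0
    simp at h0
    simp [hconst, h0]

/-- Hecke algebras are finitely generated over `ℤ`. -/
theorem moduleFinite_heckeAlgebra (N : ℕ) [NeZero N] (k : ℤ) (S : Set ℕ) :
    Module.Finite ℤ (CuspForm.heckeAlgebra N k S) := by
  rcases le_or_gt k 0 with hk | hk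
  · have : Subsingleton (CuspForm (Gamma0 N) k) :=
      subsingleton_of_forall_eq 0 fun f => cuspForm_eq_zero_of_nonpos hk f
    infer_instance
  have hk1 : 1 ≤ k := hk
  set L := CuspForm.intLattice N k with hL
  have : Module.Finite ℤ L := Module.Finite.iff_fg.2 (CuspForm.intLattice_fg N k)
  have : IsAddTorsionFree L := by
    refine ⟨fun n hn a b hab => Subtype.ext ?_⟩
    have h : (n : ℂ) • (a : CuspForm (Gamma0 N) k) = (n : ℂ) • (b : CuspForm (Gamma0 N) k) := by
      simpa [Nat.cast_smul_eq_nsmul] using congrArg Subtype.val hab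
    exact smul_right_injective _ (Nat.cast_ne_zero.mpr hn) h
  have : Module.Free ℤ L := Module.free_of_finite_type_torsion_free'
  let r : CuspForm.heckeAlgebra N k S →ₗ[ℤ] Module.End ℤ L :=
    { toFun := fun t => (t.1.restrictScalars ℤ).restrict fun f hf =>
        CuspForm.mem_intLattice_of_mem_heckeAlgebra hk1 t.2 hf
      map_add' := fun a b => by ext f; rfl
      map_smul' := fun c a => by ext f; rfl }
  refine Module.Finite.of_injective r fun a b hab => Subtype.ext ?_
  refine LinearMap.ext_on (hasIntegralStructure N k) fun f hf => ?_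
  exact congrArg Subtype.val (LinearMap.congr_fun hab ⟨f, hf⟩)

end FLTAgent.MFIntegral
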